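import Fermat.Agent.S36.H586.G1Dvr
import Fermat.Agent.S36.H586.Approx586

/-!
# S36 engine, ALG3 leaf STEP-A (helper586), part 2: approximation at three DVRs

Mathlib + helper253's approximation lemmas (copied in `Approx586.lean`).

* `exists_approx_ord3` : prescribed orders at three distinct discrete valuation subrings;
* `exists_approx_res3` : prescribed residues (of units) at three distinct discrete valuation
                         subrings.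
-/

set_option autoImplicit false

namespace Fermat.Agent.S36.H586

section Approx3

variable {F : Type*} [Field F]

/-- The family of three valuation subrings. -/
def fam3 (V₁ V₂ V₃ : ValuationSubring F) : Fin 3 → ValuationSubring F := ![V₁, V₂, V₃]

theorem fam3_inc (V₁ V₂ V₃ : ValuationSubring F) [IsDiscreteValuationRing V₁]
    [IsDiscreteValuationRing V₂] [IsDiscreteValuationRing V₃]
    (h12 : V₁ ≠ V₂) (h13 : V₁ ≠ V₃) (h23 : V₂ ≠ V₃) :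
    ∀ i i' : Fin 3, i ≠ i' → ¬ fam3 V₁ V₂ V₃ i ≤ fam3 V₁ V₂ V₃ i' := by
  intro i i' hii'
  fin_cases i <;> fin_cases i' <;> simp only [fam3] at *
  · exact absurd rfl hii'
  · exact not_le_of_dvr_ne V₁ V₂ h12
  · exact not_le_of_dvr_ne V₁ V₃ h13
  · exact not_le_of_dvr_ne V₂ V₁ (Ne.symm h12)
  · exact absurd rfl hii'
  · exact not_le_of_dvr_ne V₂ V₃ h23
  · exact not_le_of_dvr_ne V₃ V₁ (Ne.symm h13)
  · exact not_le_of_dvr_ne V₃ V₂ (Ne.symm h23)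
  · exact absurd rfl hii'

theorem val_le_of_gen {V : ValuationSubring F} {t : F} (ht0 : t ≠ 0)
    (hgen : ∀ f ∈ V.nonunits, f * t⁻¹ ∈ V) (z : F) (hz : V.valuation z < 1) :
    V.valuation z ≤ V.valuation t := by
  have h1 : z * t⁻¹ ∈ V := hgen z ((ValuationSubring.mem_nonunits_iff V).2 hz)
  have h2 := (ValuationSubring.valuation_le_one_iff V _).2 h1
  rw [map_mul, map_inv₀] at h2
  have ht : 0 < V.valuation t := zero_lt_iff.2 ((Valuation.ne_zero_iff _).2 ht0)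
  have := mul_le_mul_of_nonneg_right h2 ht.le
  rwa [mul_assoc, inv_mul_cancel₀ ht.ne', mul_one, one_mul] at this

/-- **Prescribed orders** at three distinct discrete valuation subrings. -/
theorem exists_approx_ord3 (V₁ V₂ V₃ : ValuationSubring F) [IsDiscreteValuationRing V₁]
    [IsDiscreteValuationRing V₂] [IsDiscreteValuationRing V₃]
    (h12 : V₁ ≠ V₂) (h13 : V₁ ≠ V₃) (h23 : V₂ ≠ V₃) {t₁ t₂ t₃ : F}
    (h₁0 : t₁ ≠ 0) (h₁ : t₁ ∈ V₁.nonunits) (hg₁ : ∀ f ∈ V₁.nonunits, f * t₁⁻¹ ∈ V₁)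
    (h₂0 : t₂ ≠ 0) (h₂ : t₂ ∈ V₂.nonunits) (hg₂ : ∀ f ∈ V₂.nonunits, f * t₂⁻¹ ∈ V₂)
    (h₃0 : t₃ ≠ 0) (h₃ : t₃ ∈ V₃.nonunits) (hg₃ : ∀ f ∈ V₃.nonunits, f * t₃⁻¹ ∈ V₃)
    (a b c : ℤ) : ∃ g : F, IsOrd V₁ t₁ g a ∧ IsOrd V₂ t₂ g b ∧ IsOrd V₃ t₃ g c := by
  have hinc := fam3_inc V₁ V₂ V₃ h12 h13 h23
  obtain ⟨T₁, hT₁, hT₁'⟩ := Fermat.Agent.S36.H586.Ap.exists_unif_multi (fam3 V₁ V₂ V₃) hinc 0
    (τ := t₁) h₁0 (val_lt_one_of_mem_nonunits h₁) (val_le_of_gen h₁0 hg₁)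
  obtain ⟨T₂, hT₂, hT₂'⟩ := Fermat.Agent.S36.H586.Ap.exists_unif_multi (fam3 V₁ V₂ V₃) hinc 1
    (τ := t₂) h₂0 (val_lt_one_of_mem_nonunits h₂) (val_le_of_gen h₂0 hg₂)
  obtain ⟨T₃, hT₃, hT₃'⟩ := Fermat.Agent.S36.H586.Ap.exists_unif_multi (fam3 V₁ V₂ V₃) hinc 2
    (τ := t₃) h₃0 (val_lt_one_of_mem_nonunits h₃) (val_le_of_gen h₃0 hg₃)
  have e10 : V₁.valuation T₁ = V₁.valuation t₁ := hT₁
  have e11 : V₂.valuation T₁ = 1 := hT₁' 1 (by decide)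
  have e12 : V₃.valuation T₁ = 1 := hT₁' 2 (by decide)
  have e20 : V₁.valuation T₂ = 1 := hT₂' 0 (by decide)
  have e21 : V₂.valuation T₂ = V₂.valuation t₂ := hT₂
  have e22 : V₃.valuation T₂ = 1 := hT₂' 2 (by decide)
  have e30 : V₁.valuation T₃ = 1 := hT₃' 0 (by decide)
  have e31 : V₂.valuation T₃ = 1 := hT₃' 1 (by decide)
  have e32 : V₃.valuation T₃ = V₃.valuation t₃ := hT₃
  refine ⟨T₁ ^ a * T₂ ^ b * T₃ ^ c, ?_, ?_, ?_⟩
  · unfold IsOrd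
    rw [map_mul, map_mul, map_zpow₀, map_zpow₀, map_zpow₀, e10, e20, e30, one_zpow, one_zpow,
      mul_one, mul_one]
  · unfold IsOrd
    rw [map_mul, map_mul, map_zpow₀, map_zpow₀, map_zpow₀, e11, e21, e31, one_zpow, one_zpow,
      mul_one, one_mul]
  · unfold IsOrd
    rw [map_mul, map_mul, map_zpow₀, map_zpow₀, map_zpow₀, e12, e22, e32, one_zpow, one_zpow,
      one_mul, one_mul]

theorem val_lt_one_of_three {V : ValuationSubring F} {a b c : F} (ha : V.valuation a < 1)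
    (hb : V.valuation b < 1) (hc : V.valuation c < 1) : V.valuation (a + b + c) < 1 :=
  Valuation.map_add_lt _ (Valuation.map_add_lt _ ha hb) hc

theorem val_mul_lt_one_of_lt_of_le {V : ValuationSubring F} {a b : F} (ha : V.valuation a < 1)
    (hb : V.valuation b ≤ 1) : V.valuation (a * b) < 1 := by
  rw [map_mul]
  calc V.valuation a * V.valuation b ≤ V.valuation a * 1 := by gcongr
    _ = V.valuation a := mul_one _
    _ < 1 := ha

theorem val_sub_comm_lt {V : ValuationSubring F} {a b : F} (h : V.valuation (a - b) < 1) :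
    V.valuation (b - a) < 1 := by
  rwa [← Valuation.map_neg, neg_sub]

/-- **Prescribed residues** at three distinct discrete valuation subrings. -/
theorem exists_approx_res3 (V₁ V₂ V₃ : ValuationSubring F) [IsDiscreteValuationRing V₁]
    [IsDiscreteValuationRing V₂] [IsDiscreteValuationRing V₃]
    (h12 : V₁ ≠ V₂) (h13 : V₁ ≠ V₃) (h23 : V₂ ≠ V₃) (g₁ g₂ g₃ : F)
    (hg₁ : V₁.valuation g₁ = 1) (hg₂ : V₂.valuation g₂ = 1) (hg₃ : V₃.valuation g₃ = 1) :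
    ∃ g : F, PU V₁ (g / g₁) ∧ PU V₂ (g / g₂) ∧ PU V₃ (g / g₃) := by
  have hinc := fam3_inc V₁ V₂ V₃ h12 h13 h23
  have m₁ : g₁ ∈ fam3 V₁ V₂ V₃ 0 := (ValuationSubring.valuation_le_one_iff V₁ _).1 hg₁.le
  have m₂ : g₂ ∈ fam3 V₁ V₂ V₃ 1 := (ValuationSubring.valuation_le_one_iff V₂ _).1 hg₂.le
  have m₃ : g₃ ∈ fam3 V₁ V₂ V₃ 2 := (ValuationSubring.valuation_le_one_iff V₃ _).1 hg₃.le
  obtain ⟨L₁, hL₁, hL₁'⟩ := Fermat.Agent.S36.H586.Ap.exists_lift_multi (fam3 V₁ V₂ V₃) hinc 0 m₁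
  obtain ⟨L₂, hL₂, hL₂'⟩ := Fermat.Agent.S36.H586.Ap.exists_lift_multi (fam3 V₁ V₂ V₃) hinc 1 m₂
  obtain ⟨L₃, hL₃, hL₃'⟩ := Fermat.Agent.S36.H586.Ap.exists_lift_multi (fam3 V₁ V₂ V₃) hinc 2 m₃
  obtain ⟨E₁, hE₁, hE₁'⟩ := Fermat.Agent.S36.H586.Ap.exists_idem_multi (fam3 V₁ V₂ V₃) hinc 0
  obtain ⟨E₂, hE₂, hE₂'⟩ := Fermat.Agent.S36.H586.Ap.exists_idem_multi (fam3 V₁ V₂ V₃) hinc 1
  obtain ⟨E₃, hE₃, hE₃'⟩ := Fermat.Agent.S36.H586.Ap.exists_idem_multi (fam3 V₁ V₂ V₃) hinc 2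
  -- memberships and smallness, spelled out
  have l10 : V₁.valuation L₁ ≤ 1 := (ValuationSubring.valuation_le_one_iff V₁ _).2 (hL₁ 0)
  have l11 : V₂.valuation L₁ ≤ 1 := (ValuationSubring.valuation_le_one_iff V₂ _).2 (hL₁ 1)
  have l12 : V₃.valuation L₁ ≤ 1 := (ValuationSubring.valuation_le_one_iff V₃ _).2 (hL₁ 2)
  have l20 : V₁.valuation L₂ ≤ 1 := (ValuationSubring.valuation_le_one_iff V₁ _).2 (hL₂ 0)
  have l21 : V₂.valuation L₂ ≤ 1 := (ValuationSubring.valuation_le_one_iff V₂ _).2 (hL₂ 1)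
  have l22 : V₃.valuation L₂ ≤ 1 := (ValuationSubring.valuation_le_one_iff V₃ _).2 (hL₂ 2)
  have l30 : V₁.valuation L₃ ≤ 1 := (ValuationSubring.valuation_le_one_iff V₁ _).2 (hL₃ 0)
  have l31 : V₂.valuation L₃ ≤ 1 := (ValuationSubring.valuation_le_one_iff V₂ _).2 (hL₃ 1)
  have l32 : V₃.valuation L₃ ≤ 1 := (ValuationSubring.valuation_le_one_iff V₃ _).2 (hL₃ 2)
  have d1 : V₁.valuation (L₁ - g₁) < 1 := hL₁'
  have d2 : V₂.valuation (L₂ - g₂) < 1 := hL₂'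
  have d3 : V₃.valuation (L₃ - g₃) < 1 := hL₃'
  have s10 : V₁.valuation (E₁ - 1) < 1 := val_sub_comm_lt hE₁
  have s11 : V₂.valuation E₁ < 1 := hE₁' 1 (by decide)
  have s12 : V₃.valuation E₁ < 1 := hE₁' 2 (by decide)
  have s20 : V₁.valuation E₂ < 1 := hE₂' 0 (by decide)
  have s21 : V₂.valuation (E₂ - 1) < 1 := val_sub_comm_lt hE₂
  have s22 : V₃.valuation E₂ < 1 := hE₂' 2 (by decide)
  have s30 : V₁.valuation E₃ < 1 := hE₃' 0 (by decide)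
  have s31 : V₂.valuation E₃ < 1 := hE₃' 1 (by decide)
  have s32 : V₃.valuation (E₃ - 1) < 1 := val_sub_comm_lt hE₃
  refine ⟨E₁ * L₁ + E₂ * L₂ + E₃ * L₃, ?_, ?_, ?_⟩
  · refine pu_div_of_sub hg₁ ?_
    have e : E₁ * L₁ + E₂ * L₂ + E₃ * L₃ - g₁ =
        ((E₁ - 1) * L₁ + (L₁ - g₁)) + E₂ * L₂ + E₃ * L₃ := by ring
    rw [e]
    exact val_lt_one_of_three
      (Valuation.map_add_lt _ (val_mul_lt_one_of_lt_of_le s10 l10) d1)
      (val_mul_lt_one_of_lt_of_le s20 l20) (val_mul_lt_one_of_lt_of_le s30 l30)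
  · refine pu_div_of_sub hg₂ ?_
    have e : E₁ * L₁ + E₂ * L₂ + E₃ * L₃ - g₂ =
        E₁ * L₁ + ((E₂ - 1) * L₂ + (L₂ - g₂)) + E₃ * L₃ := by ring
    rw [e]
    exact val_lt_one_of_three (val_mul_lt_one_of_lt_of_le s11 l11)
      (Valuation.map_add_lt _ (val_mul_lt_one_of_lt_of_le s21 l21) d2)
      (val_mul_lt_one_of_lt_of_le s31 l31)
  · refine pu_div_of_sub hg₃ ?_
    have e : E₁ * L₁ + E₂ * L₂ + E₃ * L₃ - g₃ =
        E₁ * L₁ + E₂ * L₂ + ((E₃ - 1) * L₃ + (L₃ - g₃)) := by ring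
    rw [e]
    exact val_lt_one_of_three (val_mul_lt_one_of_lt_of_le s12 l12)
      (val_mul_lt_one_of_lt_of_le s22 l22)
      (Valuation.map_add_lt _ (val_mul_lt_one_of_lt_of_le s32 l32) d3)

end Approx3

end Fermat.Agent.S36.H586
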