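import Fermat.Agent.S36.Eng.Spec
import Fermat.Agent.S36.H586.G1Approx
import Fermat.Agent.S36.H193.SheetsAll

/-!
# S36 engine, ALG3 leaf STEP-A (helper586), part 3: the norm table of a three-component context

Adapters from the elementwise vocabulary of `Eng/Spec.lean` (`UnitAt`, `UnifAt`, the fields of
`Eng.TripleCtx` passed one by one) to the valuation vocabulary of `StepAB.lean`
(`IsOrd`, `PU`, `NormTable`).

* `unitAt_iff`, `isOrd_iff_unitAt`, `pu_iff`
* `over_of_comap`, `over_isOrd_down`
* `res_lift_of_chart` : chart-level residue lifts (`res_α₁`, …) ⟹ valuation-level residue lifts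
                        (a sheet is the localisation of the chart);
* `normAlong_map`     : `N_φ (φ a) = a ^ [F : φ F']`;
* `normTable_of_fields` : the `NormTable` of one degeneracy map.
-/

set_option autoImplicit false
set_option linter.style.haveILetI false
set_option linter.unusedSectionVars false
set_option linter.unusedVariables false

noncomputable section

namespace Fermat.Agent.S36.H586

open Fermat.Agent.S36.Eng
open Fermat.Agent.S18.H138 (chart baseField)
open Fermat.Agent.A2.H12 (IsSheet)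
open AlgebraicCurve

section Vocab

variable {F : Type*} [Field F]

theorem unitAt_iff {V : ValuationSubring F} {y : F} : UnitAt V y ↔ V.valuation y = 1 := by
  constructor
  · rintro ⟨h0, h1, h2⟩
    have a1 := (ValuationSubring.valuation_le_one_iff V _).2 h1
    have a2 := (ValuationSubring.valuation_le_one_iff V _).2 h2
    rw [map_inv₀] at a2
    have hv0 : 0 < V.valuation y := zero_lt_iff.2 ((Valuation.ne_zero_iff _).2 h0)
    exact le_antisymm a1 ((inv_le_one₀ hv0).1 a2)
  · intro h
    have h0 : y ≠ 0 := by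
      rintro rfl
      rw [map_zero] at h
      exact zero_ne_one h
    refine ⟨h0, (ValuationSubring.valuation_le_one_iff V _).1 h.le, ?_⟩
    rw [← ValuationSubring.valuation_le_one_iff, map_inv₀, h, inv_one]

theorem isOrd_iff_unitAt {V : ValuationSubring F} {t : F} (ht0 : t ≠ 0) (y : F) (a : ℤ) :
    IsOrd V t y a ↔ UnitAt V (y * (t ^ a)⁻¹) := by
  rw [unitAt_iff, map_mul, map_inv₀, map_zpow₀]
  have h0 : V.valuation t ^ a ≠ 0 := zpow_ne_zero a (val_ne_zero_of_ne_zero ht0)
  unfold IsOrd
  constructor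
  · intro h
    rw [h]
    exact mul_inv_cancel₀ h0
  · intro h
    have := congrArg (fun z => z * V.valuation t ^ a) h
    simpa [mul_assoc, inv_mul_cancel₀ h0] using this

theorem pu_iff {V : ValuationSubring F} {u : F} : PU V u ↔ u - 1 ∈ V.nonunits :=
  (ValuationSubring.mem_nonunits_iff V).symm

theorem val_lt_one_iff_mem_nonunits {V : ValuationSubring F} {u : F} :
    V.valuation u < 1 ↔ u ∈ V.nonunits :=
  (ValuationSubring.mem_nonunits_iff V).symm

theorem UnifAt.val_lt_one {V : ValuationSubring F} {t : F} (h : UnifAt V t) :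
    V.valuation t < 1 := val_lt_one_of_mem_nonunits h.2.1

/-- Orders exist at a discrete valuation subring with a uniformiser in the sense of
`Eng.UnifAt`. -/
theorem exists_isOrd_of_unifAt (V : ValuationSubring F) [IsDiscreteValuationRing V] {t : F}
    (h : UnifAt V t) (y : F) (hy : y ≠ 0) : ∃ a : ℤ, IsOrd V t y a :=
  exists_isOrd_of_dvr V h.1 h.2.1 h.2.2 y hy

end Vocab

section OverDown

variable {F' F : Type*} [Field F'] [Field F] {φ : F' →+* F} {O : ValuationSubring F'}
  {V : ValuationSubring F}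

theorem over_of_comap (h : V.comap φ = O) : ∀ a : F', φ a ∈ V ↔ a ∈ O := by
  intro a
  rw [← h, ValuationSubring.mem_comap]

theorem over_isOrd_down (hov : ∀ a : F', φ a ∈ V ↔ a ∈ O) {t : F'} (ht0 : t ≠ 0) (a : F')
    (n : ℤ) (h : IsOrd V (φ t) (φ a) n) : IsOrd O t a n := by
  have hφt : φ t ≠ 0 := (map_ne_zero φ).2 ht0
  have h1 : V.valuation (φ (a * (t ^ n)⁻¹)) = 1 := by
    rw [map_mul, map_inv₀, map_zpow₀]
    exact unitAt_iff.1 ((isOrd_iff_unitAt hφt _ _).1 h)
  have h2 := (over_val_eq_one hov _).1 h1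
  exact (isOrd_iff_unitAt ht0 _ _).2 (unitAt_iff.2 h2)

end OverDown

/-! ## Residue lifts: from the chart to the valuation ring -/

section ResLift

universe u

variable {R : Type u} [CommRing R] [IsDomain R] [IsNoetherianRing R]
  [IsIntegrallyClosed (Polynomial R)]
variable {F : Type u} [Field F] [Algebra R F] [CharZero F]
variable {F' : Type*} [Field F']

/-- If every element of the chart is congruent modulo `𝔪_V` to an element of `φ F'`, so is every
unit of the sheet `V`. -/
theorem res_lift_of_chart (hinjR : Function.Injective (algebraMap R F)) {w : R} (hw : Prime w)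
    {x : F} (hx : Transcendental R x) [FiniteDimensional (baseField R x) F]
    {V : ValuationSubring F} (hV : IsSheet w x V) (φ : F' →+* F)
    (hres : ∀ b ∈ chart R ({x} : Set F), ∃ b' : F', b - φ b' ∈ V.nonunits)
    (y : F) (hy : V.valuation y = 1) : ∃ a : F', V.valuation (y - φ a) < 1 := by
  have hyV : y ∈ V := (ValuationSubring.valuation_le_one_iff V _).1 hy.le
  obtain ⟨a, s, hs, hya⟩ := (Fermat.Agent.S36.H193.sheet_mem_iff hinjR hw hx hV y).1 hyV
  have haV : (a : F) ∈ V := Fermat.Agent.S36.H193.sheet_chart_le hV _ a.2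
  have hsV : (s : F) ∈ V := Fermat.Agent.S36.H193.sheet_chart_le hV _ s.2
  have hs1 : V.valuation (s : F) = 1 := by
    refine le_antisymm ((ValuationSubring.valuation_le_one_iff V _).2 hsV) (not_lt.1 ?_)
    intro h
    exact hs ((ValuationSubring.mem_nonunits_iff V).2 h)
  obtain ⟨a', ha'⟩ := hres a a.2
  obtain ⟨s', hs'⟩ := hres s s.2
  have ha'' : V.valuation ((a : F) - φ a') < 1 := (ValuationSubring.mem_nonunits_iff V).1 ha'
  have hs'' : V.valuation ((s : F) - φ s') < 1 := (ValuationSubring.mem_nonunits_iff V).1 hs'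
  have hφs1 : V.valuation (φ s') = 1 := by
    have e : φ s' = (s : F) + -((s : F) - φ s') := by ring
    rw [e, Valuation.map_add_eq_of_lt_left _ (by rw [Valuation.map_neg, hs1]; exact hs''), hs1]
  have hs0 : (s : F) ≠ 0 := by
    intro h
    rw [h, map_zero] at hs1
    exact zero_ne_one hs1
  have hφs0 : φ s' ≠ 0 := by
    intro h
    rw [h, map_zero] at hφs1
    exact zero_ne_one hφs1
  refine ⟨a' * s'⁻¹, ?_⟩
  have e : y - φ (a' * s'⁻¹) =
      (((a : F) - φ a') * (s : F) + -((a : F) * ((s : F) - φ s'))) * ((s : F) * φ s')⁻¹ := by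
    rw [hya, map_mul, map_inv₀]
    field_simp
    ring
  rw [e, map_mul, map_inv₀, map_mul, hs1, hφs1, mul_one, inv_one, mul_one]
  refine Valuation.map_add_lt _ ?_ ?_
  · rw [map_mul, hs1, mul_one]
    exact ha''
  · rw [Valuation.map_neg, map_mul]
    calc V.valuation (a : F) * V.valuation ((s : F) - φ s')
        ≤ 1 * V.valuation ((s : F) - φ s') := by
          gcongr
          exact (ValuationSubring.valuation_le_one_iff V _).2 haV
      _ = V.valuation ((s : F) - φ s') := one_mul _
      _ < 1 := hs''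

end ResLift

/-! ## The norm table -/

section Table

variable {E F F' : Type*} [Field E] [Field F] [Field F'] [Algebra E F] [Algebra E F']

/-- `N_φ (φ a) = a ^ [F : φ F']`. -/
theorem normAlong_map (φ : F' →ₐ[E] F) (a : F') :
    S29.H395.normAlong φ (φ a) =
      a ^ (letI := algebraAlong φ; Module.finrank F' F) := by
  letI := algebraAlong φ
  exact Algebra.norm_algebraMap a

/-- **The norm table of one degeneracy map**, from the fields of `Eng.TripleCtx`. -/
theorem normTable_of_fields (φ : F' →ₐ[E] F) (q : ℕ) (hq : 0 < q) (w' : F') (w π : F)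
    (hφw : φ w' = w) (Os Oi : ValuationSubring F') (Vu Vr Vi : ValuationSubring F)
    [IsDiscreteValuationRing Vu] [IsDiscreteValuationRing Vr] [IsDiscreteValuationRing Vi]
    (hu : UnifAt Vu w) (hi : UnifAt Vi w) (hπ : UnifAt Vr π)
    (hram : UnitAt Vr (w * (π ^ (q - 1))⁻¹))
    (cu : Vu.comap (φ : F' →+* F) = Os) (cr : Vr.comap (φ : F' →+* F) = Os)
    (ci : Vi.comap (φ : F' →+* F) = Oi)
    (resu : ∀ y : F, Vu.valuation y = 1 → ∃ a : F', Vu.valuation (y - φ a) < 1)
    (resr : ∀ y : F, Vr.valuation y = 1 → ∃ a : F', Vr.valuation (y - φ a) < 1)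
    (nv : ∀ (y : F) (a₁ a₂ a₃ : ℤ), y ≠ 0 → UnitAt Vu (y * (w ^ a₁)⁻¹) →
      UnitAt Vr (y * (π ^ a₂)⁻¹) → UnitAt Vi (y * (w ^ a₃)⁻¹) →
      UnitAt Os (S29.H395.normAlong φ y * (w' ^ (a₁ + a₂))⁻¹) ∧
        UnitAt Oi (S29.H395.normAlong φ y * (w' ^ ((q : ℤ) * a₃))⁻¹))
    (nrs : ∀ y : F, UnitAt Vu y → UnitAt Vr y → ∀ x₁ x₂ : F',
      φ x₁ - y ∈ Vu.nonunits → φ x₂ - y ∈ Vr.nonunits →
      S29.H395.normAlong φ y - x₁ * x₂ ^ (q - 1) ∈ Os.nonunits)
    (nri : ∀ y : F, UnitAt Vi y → φ (S29.H395.normAlong φ y) - y ^ q ∈ Vi.nonunits) :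
    NormTable (φ : F' →+* F) (S29.H395.normAlong φ) q w' π Os Oi Vu Vr Vi := by
  have hw0 : w ≠ 0 := hu.1
  have hw'0 : w' ≠ 0 := by
    rintro rfl
    rw [map_zero] at hφw
    exact hw0 hφw.symm
  have hπ0 : π ≠ 0 := hπ.1
  have ovu := over_of_comap cu
  have ovr := over_of_comap cr
  have ovi := over_of_comap ci
  have hφw' : (φ : F' →+* F) w' = w := hφw
  -- `w'` is small at `Os`
  have hw's : Os.valuation w' < 1 := by
    rw [← over_val_lt_one ovu, hφw']
    exact UnifAt.val_lt_one hu
  -- the order of `w` at `Vr`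
  have hramO : IsOrd Vr π w ((q - 1 : ℕ) : ℤ) := by
    rw [isOrd_iff_unitAt hπ0, zpow_natCast]
    exact hram
  -- the two valuation formulas
  have val_s : ∀ (y : F) (a b : ℤ), IsOrd Vu w y a → IsOrd Vr π y b →
      IsOrd Os w' (S29.H395.normAlong φ y) (a + b) := by
    intro y a b ha hb
    have hy0 : y ≠ 0 := ha.ne_zero hw0
    obtain ⟨c, hc⟩ := exists_isOrd_of_unifAt Vi hi y hy0
    rw [isOrd_iff_unitAt hw'0]
    exact (nv y a b c hy0 ((isOrd_iff_unitAt hw0 _ _).1 ha) ((isOrd_iff_unitAt hπ0 _ _).1 hb)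
      ((isOrd_iff_unitAt hw0 _ _).1 hc)).1
  -- the degree
  have hdeg : (letI := algebraAlong φ; Module.finrank F' F) = q := by
    have h1 : IsOrd Os w' (S29.H395.normAlong φ w) ((1 : ℤ) + ((q - 1 : ℕ) : ℤ)) :=
      val_s w 1 _ IsOrd.self hramO
    have h2 : IsOrd Os w' (S29.H395.normAlong φ w)
        (((letI := algebraAlong φ; Module.finrank F' F : ℕ) : ℤ) * 1) := by
      rw [← hφw, normAlong_map]
      exact IsOrd.self.pow _
    have h3 := IsOrd.unique hw'0 hw's h1 h2
    have h4 : ((q - 1 : ℕ) : ℤ) = (q : ℤ) - 1 := by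
      rw [Nat.cast_sub hq]
      simp
    rw [h4] at h3
    have h5 : ((letI := algebraAlong φ; Module.finrank F' F : ℕ) : ℤ) = (q : ℤ) := by
      linarith
    exact_mod_cast h5
  refine
    { norm_one := S29.H395.normAlong_one φ
      norm_mul := S29.H395.normAlong_mul φ
      norm_w := ?_
      over_u := ovu
      over_r := ovr
      over_i := ovi
      res_u := resu
      res_r := resr
      res_i := ?_
      norm_s := ?_
      norm_i := ?_
      val_s := ?_
      val_i := ?_ }
  · show S29.H395.normAlong φ (φ w') = w' ^ q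
    rw [normAlong_map, hdeg]
  · intro y hy
    refine ⟨S29.H395.normAlong φ y, ?_⟩
    have h := nri y (unitAt_iff.2 hy)
    rw [← Valuation.map_neg, neg_sub]
    exact (ValuationSubring.mem_nonunits_iff Vi).1 h
  · intro y a b hyu hyr ha hb
    refine (ValuationSubring.mem_nonunits_iff Os).1
      (nrs y (unitAt_iff.2 hyu) (unitAt_iff.2 hyr) a b ?_ ?_)
    · rw [ValuationSubring.mem_nonunits_iff, ← Valuation.map_neg, neg_sub]
      exact ha
    · rw [ValuationSubring.mem_nonunits_iff, ← Valuation.map_neg, neg_sub]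
      exact hb
  · intro y c hy hyc
    have h := (ValuationSubring.mem_nonunits_iff Vi).1 (nri y (unitAt_iff.2 hy))
    have h2 : Vi.valuation ((φ : F' →+* F) (S29.H395.normAlong φ y - c)) < 1 := by
      have e : (φ : F' →+* F) (S29.H395.normAlong φ y - c) =
          (φ (S29.H395.normAlong φ y) - y ^ q) + (y ^ q - φ c) := by
        rw [map_sub]
        show φ (S29.H395.normAlong φ y) - φ c = _
        ring
      rw [e]
      exact Valuation.map_add_lt _ h hyc
    exact (over_val_lt_one ovi _).1 h2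
  · intro y a b ha hb
    rw [hφw'] at ha
    exact val_s y a b ha hb
  · intro y c hc
    rw [hφw'] at hc
    have hy0 : y ≠ 0 := hc.ne_zero hw0
    obtain ⟨a, ha⟩ := exists_isOrd_of_unifAt Vu hu y hy0
    obtain ⟨b, hb⟩ := exists_isOrd_of_unifAt Vr hπ y hy0
    rw [isOrd_iff_unitAt hw'0]
    exact (nv y a b c hy0 ((isOrd_iff_unitAt hw0 _ _).1 ha) ((isOrd_iff_unitAt hπ0 _ _).1 hb)
      ((isOrd_iff_unitAt hw0 _ _).1 hc)).2

end Table

end Fermat.Agent.S36.H586

end
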