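import Fermat.Agent.S36.Alg3.Spec
import Fermat.Agent.S36.H586.G1Table
import Fermat.Agent.S36.H919.SheetsCtx
import Fermat.Agent.A2.H552.Hensel

/-!
# S36 / ALG3 — leaf STEP-A (helper586)

`leafStepA : Alg3.LeafStepA` — steps (a), (b) of ALG3: in a three-component context, if the norms
of `f` along `α` and `β` are constants times `m`-th powers (`q ∤ m`), then

    f ^ (q² - 1) = w ^ s * G ^ m * u,    u ≡ 1 on V₁, V₂, V₃,   N_α u, N_β u  m-th powers.

Proof: `H586.stepAB` (the abstract norm calculus, `StepAB.lean`) applied to the norm tables of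
`α` and `β` (`G1Table.lean`), with approximation at `V₁, V₂, V₃` (`G1Approx.lean`).
-/

set_option autoImplicit false
set_option linter.style.haveILetI false
set_option linter.unusedSectionVars false
set_option linter.unusedVariables false
set_option synthInstance.maxHeartbeats 400000
set_option maxHeartbeats 1600000

noncomputable section

namespace Fermat.Agent.S36.H586

open Fermat.Agent.S36.Eng
open Fermat.Agent.S18.H138 (chart baseField)
open Fermat.Agent.A2.H12 (IsSheet)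

section Const

variable {R E F' : Type*} [CommRing R] [IsDomain R] [IsDiscreteValuationRing R]
  [HenselianLocalRing R] [IsAlgClosed (IsLocalRing.ResidueField R)]
  [Field E] [Algebra R E] [IsFractionRing R E]
  [Field F'] [Algebra E F'] [Algebra R F'] [IsScalarTower R E F']

/-- A nonzero constant is a power of the uniformiser times an `m`-th power (`q ∤ m`). -/
theorem const_eq_zpow_mul_pow (w : R) (hw : Irreducible w) (q m : ℕ) (hq : q.Prime)
    (hqR : (q : R) ∈ IsLocalRing.maximalIdeal R) (hqm : ¬ q ∣ m) (c : E) (hc : c ≠ 0) :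
    ∃ (s : ℤ) (v : E), v ≠ 0 ∧ c = algebraMap R E w ^ s * v ^ m := by
  have hinj : Function.Injective (algebraMap R E) := IsFractionRing.injective R E
  obtain ⟨a, b, hb0, hab⟩ : ∃ a b : R, b ≠ 0 ∧ c = algebraMap R E a / algebraMap R E b := by
    obtain ⟨a, b, hb, h⟩ := IsFractionRing.div_surjective (A := R) c
    exact ⟨a, b, nonZeroDivisors.ne_zero hb, h.symm⟩
  have ha0 : a ≠ 0 := by
    rintro rfl
    rw [map_zero, zero_div] at hab
    exact hc hab
  obtain ⟨na, ua, hua⟩ := IsDiscreteValuationRing.eq_unit_mul_pow_irreducible ha0 hw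
  obtain ⟨nb, ub, hub⟩ := IsDiscreteValuationRing.eq_unit_mul_pow_irreducible hb0 hw
  obtain ⟨va, hva⟩ := Fermat.Agent.A2.H552.exists_pow_eq_of_isUnit_of_not_dvd q m hq hqR hqm
    (ua : R) ua.isUnit
  obtain ⟨vb, hvb⟩ := Fermat.Agent.A2.H552.exists_pow_eq_of_isUnit_of_not_dvd q m hq hqR hqm
    (ub : R) ub.isUnit
  have hwE : algebraMap R E w ≠ 0 := fun h => hw.ne_zero (hinj (by rw [h, map_zero]))
  have hva0 : algebraMap R E va ≠ 0 := by
    intro h
    have : va = 0 := hinj (by rw [h, map_zero])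
    rw [this] at hva
    by_cases hm0 : m = 0
    · subst hm0
      exact absurd (dvd_zero q) hqm
    · rw [zero_pow hm0] at hva
      exact ua.ne_zero hva.symm
  have hvb0 : algebraMap R E vb ≠ 0 := by
    intro h
    have : vb = 0 := hinj (by rw [h, map_zero])
    rw [this] at hvb
    by_cases hm0 : m = 0
    · subst hm0
      exact absurd (dvd_zero q) hqm
    · rw [zero_pow hm0] at hvb
      exact ub.ne_zero hvb.symm
  refine ⟨(na : ℤ) - nb, algebraMap R E va / algebraMap R E vb, div_ne_zero hva0 hvb0, ?_⟩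
  rw [hab, hua, hub, ← hva, ← hvb, map_mul, map_mul, map_pow, map_pow, map_pow, map_pow,
    zpow_sub₀ hwE, zpow_natCast, zpow_natCast, div_pow]
  field_simp

/-- `NormPow` in the shape consumed by `stepAB`. -/
theorem exists_zpow_of_normPow (w : R) (hw : Irreducible w) (q m : ℕ) (hq : q.Prime)
    (hqR : (q : R) ∈ IsLocalRing.maximalIdeal R) (hm : 0 < m) (hqm : ¬ q ∣ m) {N : F'}
    (hN0 : N ≠ 0) (h : ∃ (c : E) (g : F'), N = algebraMap E F' c * g ^ m) :
    ∃ (s : ℤ) (g : F'), g ≠ 0 ∧ N = algebraMap R F' w ^ s * g ^ m := by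
  obtain ⟨c, g, hN⟩ := h
  have hc0 : c ≠ 0 := by
    rintro rfl
    rw [map_zero, zero_mul] at hN
    exact hN0 hN
  have hg0 : g ≠ 0 := by
    rintro rfl
    rw [zero_pow hm.ne', mul_zero] at hN
    exact hN0 hN
  obtain ⟨s, v, hv0, hcv⟩ := const_eq_zpow_mul_pow w hw q m hq hqR hqm c hc0
  refine ⟨s, algebraMap E F' v * g, mul_ne_zero ((map_ne_zero _).2 hv0) hg0, ?_⟩
  rw [hN, hcv, map_mul, map_zpow₀, map_pow, ← IsScalarTower.algebraMap_apply R E F', mul_pow]
  ring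

end Const

/-- **Leaf STEP-A** of ALG3, verbatim. -/
theorem leafStepA : Fermat.Agent.S36.Alg3.LeafStepA := by
  intro R E F F' _ _ _ _ _ _ _ _ _ _ _ _ _ _ _ _ _ w hw q hq hqR α β x x' V₁ V₂ V₃ V₁' V₂' T
    m hm hqm f hf hNα hNβ
  haveI := T.dvr₁
  haveI := T.dvr₂
  haveI := T.dvr₃
  have hq2 : 2 ≤ q := hq.two_le
  obtain ⟨π, hπ, hram⟩ := T.ram₂
  -- the uniformiser
  have hαw : α (algebraMap R F' w) = algebraMap R F w := by
    rw [IsScalarTower.algebraMap_apply R E F', α.commutes,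
      ← IsScalarTower.algebraMap_apply R E F]
  have hβw : β (algebraMap R F' w) = algebraMap R F w := by
    rw [IsScalarTower.algebraMap_apply R E F', β.commutes,
      ← IsScalarTower.algebraMap_apply R E F]
  have hαw' : (α : F' →+* F) (algebraMap R F' w) = algebraMap R F w := hαw
  have hβw' : (β : F' →+* F) (algebraMap R F' w) = algebraMap R F w := hβw
  have hwF0 : algebraMap R F w ≠ 0 := T.unif₁.1
  have hw'0 : algebraMap R F' w ≠ 0 := by
    intro h
    rw [h, map_zero] at hαw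
    exact hwF0 hαw.symm
  -- sheets
  obtain ⟨s₁, s₂, s₃⟩ := Fermat.Agent.S36.H919.h919_isSheet_of_ctx hq2 T
  haveI : CharZero F := charZero_of_injective_algebraMap (algebraMap E F).injective
  haveI : FiniteDimensional (baseField R x) F :=
    Fermat.Agent.S36.H919.h919_finiteDimensional E T.hfin
  have hinj : Function.Injective (algebraMap R F) := Fermat.Agent.S36.H919.h919_injective E
  have hxR : Transcendental R x := Fermat.Agent.S36.H919.h919_transcendental E T.hx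
  -- residue lifts
  have resα₁ : ∀ y : F, V₁.valuation y = 1 → ∃ a : F', V₁.valuation (y - α a) < 1 :=
    res_lift_of_chart hinj hw.prime hxR s₁ (α : F' →+* F)
      (fun b hb => let ⟨b', _, h⟩ := T.res_α₁ b hb; ⟨b', h⟩)
  have resα₂ : ∀ y : F, V₂.valuation y = 1 → ∃ a : F', V₂.valuation (y - α a) < 1 :=
    res_lift_of_chart hinj hw.prime hxR s₂ (α : F' →+* F)
      (fun b hb => let ⟨b', _, h⟩ := T.res_α₂ b hb; ⟨b', h⟩)
  have resβ₃ : ∀ y : F, V₃.valuation y = 1 → ∃ a : F', V₃.valuation (y - β a) < 1 :=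
    res_lift_of_chart hinj hw.prime hxR s₃ (β : F' →+* F)
      (fun b hb => let ⟨b', _, h⟩ := T.res_β₃ b hb; ⟨b', h⟩)
  have resβ₂ : ∀ y : F, V₂.valuation y = 1 → ∃ a : F', V₂.valuation (y - β a) < 1 :=
    res_lift_of_chart hinj hw.prime hxR s₂ (β : F' →+* F)
      (fun b hb => let ⟨b', _, h⟩ := T.res_β₂ b hb; ⟨b', h⟩)
  -- the two norm tables
  have Tα : NormTable (α : F' →+* F) (S29.H395.normAlong α) q (algebraMap R F' w) π
      V₁' V₂' V₁ V₂ V₃ :=
    normTable_of_fields α q hq.pos (algebraMap R F' w) (algebraMap R F w) π hαw V₁' V₂' V₁ V₂ V₃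
      T.unif₁ T.unif₃ hπ hram T.comap_α₁ T.comap_α₂ T.comap_α₃ resα₁ resα₂ (T.nv_α π hπ)
      T.nr_α₁ T.nr_α₂
  have Tβ : NormTable (β : F' →+* F) (S29.H395.normAlong β) q (algebraMap R F' w) π
      V₂' V₁' V₃ V₂ V₁ :=
    normTable_of_fields β q hq.pos (algebraMap R F' w) (algebraMap R F w) π hβw V₂' V₁' V₃ V₂ V₁
      T.unif₃ T.unif₁ hπ hram T.comap_β₃ T.comap_β₂ T.comap_β₁ resβ₃ resβ₂
      (fun y au ar ai hy hu hr hi => T.nv_β π hπ y ai ar au hy hi hr hu) T.nr_β₁ T.nr_β₂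
  -- orders
  have hordFF : ∀ y : F, y ≠ 0 → ∃ a : ℤ, IsOrd V₁ (algebraMap R F w) y a :=
    exists_isOrd_of_unifAt V₁ T.unif₁
  have hordmid : ∀ y : F, y ≠ 0 → ∃ a : ℤ, IsOrd V₂ π y a := exists_isOrd_of_unifAt V₂ hπ
  have hordVV : ∀ y : F, y ≠ 0 → ∃ a : ℤ, IsOrd V₃ (algebraMap R F w) y a :=
    exists_isOrd_of_unifAt V₃ T.unif₃
  have hord1 : ∀ y : F', y ≠ 0 → ∃ a : ℤ, IsOrd V₁' (algebraMap R F' w) y a := by
    intro y hy
    obtain ⟨a, ha⟩ := hordFF (α y) ((map_ne_zero α).2 hy)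
    refine ⟨a, over_isOrd_down (φ := (α : F' →+* F)) Tα.over_u hw'0 y a ?_⟩
    rw [hαw']
    exact ha
  have hord2 : ∀ y : F', y ≠ 0 → ∃ a : ℤ, IsOrd V₂' (algebraMap R F' w) y a := by
    intro y hy
    obtain ⟨a, ha⟩ := hordVV (α y) ((map_ne_zero α).2 hy)
    refine ⟨a, over_isOrd_down (φ := (α : F' →+* F)) Tα.over_i hw'0 y a ?_⟩
    rw [hαw']
    exact ha
  have hw1 : V₁'.valuation (algebraMap R F' w) < 1 := by
    rw [← over_val_lt_one Tα.over_u, hαw']
    exact UnifAt.val_lt_one T.unif₁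
  have hw2 : V₂'.valuation (algebraMap R F' w) < 1 := by
    rw [← over_val_lt_one Tα.over_i, hαw']
    exact UnifAt.val_lt_one T.unif₃
  have hramO : IsOrd V₂ π (algebraMap R F w) ((q : ℤ) - 1) := by
    have h1 : IsOrd V₂ π (algebraMap R F w) ((q - 1 : ℕ) : ℤ) := by
      rw [isOrd_iff_unitAt hπ.1, zpow_natCast]
      exact hram
    have h4 : ((q - 1 : ℕ) : ℤ) = (q : ℤ) - 1 := by
      rw [Nat.cast_sub hq.pos]
      simp
    rwa [h4] at h1
  -- approximation
  have hap_ord : ∀ a b c : ℤ, ∃ g : F, IsOrd V₁ (algebraMap R F w) g a ∧ IsOrd V₂ π g b ∧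
      IsOrd V₃ (algebraMap R F w) g c :=
    exists_approx_ord3 V₁ V₂ V₃ T.ne₁₂ T.ne₁₃ T.ne₂₃ T.unif₁.1 T.unif₁.2.1 T.unif₁.2.2
      hπ.1 hπ.2.1 hπ.2.2 T.unif₃.1 T.unif₃.2.1 T.unif₃.2.2
  have hap_res : ∀ g₁ g₂ g₃ : F, V₁.valuation g₁ = 1 → V₂.valuation g₂ = 1 →
      V₃.valuation g₃ = 1 → ∃ g : F, PU V₁ (g / g₁) ∧ PU V₂ (g / g₂) ∧ PU V₃ (g / g₃) :=
    exists_approx_res3 V₁ V₂ V₃ T.ne₁₂ T.ne₁₃ T.ne₂₃
  -- the norms
  have hNα' := exists_zpow_of_normPow (E := E) w hw q m hq hqR hm hqm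
    (S29.H395.normAlong_ne_zero α T.fin_α hf) hNα
  have hNβ' := exists_zpow_of_normPow (E := E) w hw q m hq hqR hm hqm
    (S29.H395.normAlong_ne_zero β T.fin_β hf) hNβ
  obtain ⟨s, G, u, hG, hfu, hu₁, hu₂, hu₃, ⟨k₁, hk₁⟩, ⟨k₂, hk₂⟩⟩ :=
    stepAB (α : F' →+* F) (β : F' →+* F) (S29.H395.normAlong α) (S29.H395.normAlong β) q m
      hq.pos hm ((Nat.Prime.coprime_iff_not_dvd hq).2 hqm) (algebraMap R F' w)
      (algebraMap R F w) π hαw' hβw' V₁' V₂' V₁ V₂ V₃ Tα Tβ hw'0 hw1 hw2 hπ.1 hramO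
      hordFF hordmid hordVV hord1 hord2 hap_ord hap_res f hf hNα' hNβ'
  exact ⟨s, G, u, k₁, k₂, hG, hfu, pu_iff.1 hu₁, pu_iff.1 hu₂, pu_iff.1 hu₃, hk₁, hk₂⟩

end Fermat.Agent.S36.H586

end
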