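import Fermat.Agent.S36.H586.StepAB

/-!
# S36 engine, ALG3 gap lemma G1 (helper586), part 1: orders in discrete valuation subrings

Mathlib only (on top of `StepAB.lean`).

* `exists_isOrd_of_dvr`   : in a discrete valuation subring with uniformiser `t` every `y ≠ 0`
                            has an order, `v(y) = v(t) ^ a`;
* `not_le_of_dvr_ne`      : distinct discrete valuation subrings are incomparable.
-/

set_option autoImplicit false

namespace Fermat.Agent.S36.H586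

section Dvr

variable {F : Type*} [Field F]

theorem val_lt_one_of_mem_nonunits {V : ValuationSubring F} {t : F} (ht : t ∈ V.nonunits) :
    V.valuation t < 1 := (ValuationSubring.mem_nonunits_iff V).1 ht

/-- A generator of the maximal ideal of a discrete valuation subring is irreducible. -/
theorem irreducible_of_unif (V : ValuationSubring F) [IsDiscreteValuationRing V] {t : F}
    (ht0 : t ≠ 0) (ht : t ∈ V.nonunits) (hgen : ∀ f ∈ V.nonunits, f * t⁻¹ ∈ V) :
    Irreducible (⟨t, V.nonunits_subset ht⟩ : V) := by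
  obtain ⟨ϖ, hϖ⟩ := IsDiscreteValuationRing.exists_irreducible V
  have hϖm : (ϖ : F) ∈ V.nonunits := by
    rw [ValuationSubring.mem_nonunits_iff, ← ValuationSubring.valuation_lt_one_iff]
    exact (IsLocalRing.mem_maximalIdeal _).2 hϖ.not_isUnit
  have hc := hgen _ hϖm
  have htu : ¬ IsUnit (⟨t, V.nonunits_subset ht⟩ : V) := by
    intro h
    have h1 := (ValuationSubring.valuation_eq_one_iff V _).1 h
    exact (ne_of_lt (val_lt_one_of_mem_nonunits ht)) h1
  have heq : ϖ = (⟨t, V.nonunits_subset ht⟩ : V) * ⟨(ϖ : F) * t⁻¹, hc⟩ := by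
    apply Subtype.ext
    show (ϖ : F) = t * ((ϖ : F) * t⁻¹)
    field_simp
  rcases hϖ.isUnit_or_isUnit heq with h | h
  · exact absurd h htu
  · have hass : Associated (⟨t, V.nonunits_subset ht⟩ : V) ϖ := by
      obtain ⟨u, hu⟩ := h
      exact ⟨u, by rw [hu]; exact heq.symm⟩
    exact hass.symm.irreducible hϖ

/-- Orders exist in a discrete valuation subring. -/
theorem exists_isOrd_of_dvr (V : ValuationSubring F) [IsDiscreteValuationRing V] {t : F}
    (ht0 : t ≠ 0) (ht : t ∈ V.nonunits) (hgen : ∀ f ∈ V.nonunits, f * t⁻¹ ∈ V)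
    (y : F) (hy : y ≠ 0) : ∃ a : ℤ, IsOrd V t y a := by
  have hirr := irreducible_of_unif V ht0 ht hgen
  have key : ∀ z : F, z ≠ 0 → z ∈ V → ∃ n : ℕ, IsOrd V t z n := by
    intro z hz0 hzV
    have hz0' : (⟨z, hzV⟩ : V) ≠ 0 := fun h => hz0 (congrArg Subtype.val h)
    obtain ⟨n, hn⟩ := IsDiscreteValuationRing.associated_pow_irreducible hz0' hirr
    obtain ⟨u, hu⟩ := hn
    refine ⟨n, ?_⟩
    unfold IsOrd
    have h1 : z * ((u : V) : F) = t ^ n := by
      have := congrArg Subtype.val hu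
      simpa using this
    have h2 : V.valuation (((u : V) : F)) = 1 := ValuationSubring.valuation_unit V u
    have h3 := congrArg V.valuation h1
    rw [map_mul, h2, mul_one, map_pow] at h3
    rw [h3, zpow_natCast]
  rcases V.mem_or_inv_mem y with h | h
  · obtain ⟨n, hn⟩ := key y hy h
    exact ⟨n, hn⟩
  · obtain ⟨n, hn⟩ := key y⁻¹ (inv_ne_zero hy) h
    refine ⟨-n, ?_⟩
    have := hn.inv
    rwa [inv_inv] at this

/-- Distinct discrete valuation subrings are incomparable. -/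
theorem not_le_of_dvr_ne (V V' : ValuationSubring F) [IsDiscreteValuationRing V]
    [IsDiscreteValuationRing V'] (hne : V ≠ V') : ¬ V ≤ V' := by
  intro hle
  apply hne
  refine le_antisymm hle ?_
  intro y hy
  by_contra hyV
  -- uniformisers
  obtain ⟨ϖ, hϖ⟩ := IsDiscreteValuationRing.exists_irreducible V
  obtain ⟨ϖ', hϖ'⟩ := IsDiscreteValuationRing.exists_irreducible V'
  have hϖ'm : V'.valuation (ϖ' : F) < 1 := by
    rw [← ValuationSubring.valuation_lt_one_iff]
    exact (IsLocalRing.mem_maximalIdeal _).2 hϖ'.not_isUnit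
  have hϖ'0 : (ϖ' : F) ≠ 0 := fun h => hϖ'.ne_zero (Subtype.ext h)
  have hy0 : y ≠ 0 := by
    rintro rfl
    exact hyV V.zero_mem
  -- `ϖ' ∈ 𝔪_V`
  have hϖ'V : V.valuation (ϖ' : F) < 1 := by
    by_contra hnot
    have h1 : (ϖ' : F)⁻¹ ∈ V := by
      rw [← ValuationSubring.valuation_le_one_iff, map_inv₀]
      exact inv_le_one_of_one_le₀ (not_lt.1 hnot)
    have h2 : (ϖ' : F)⁻¹ ∈ V' := hle h1
    rw [← ValuationSubring.valuation_le_one_iff, map_inv₀] at h2
    have h3 : 1 ≤ V'.valuation (ϖ' : F) := by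
      have h0 : V'.valuation (ϖ' : F) ≠ 0 := (Valuation.ne_zero_iff _).2 hϖ'0
      exact (inv_le_one₀ (zero_lt_iff.2 h0)).1 h2
    exact (not_le.2 hϖ'm) h3
  -- `y⁻¹ ∈ 𝔪_V`
  have hyinv : V.valuation y⁻¹ < 1 := by
    rw [map_inv₀]
    have h1 : 1 < V.valuation y := by
      rw [← not_le, ValuationSubring.valuation_le_one_iff]
      exact hyV
    exact inv_lt_one_of_one_lt₀ h1
  -- orders at `V` with respect to `ϖ`
  have hϖm : (ϖ : F) ∈ V.nonunits := by
    rw [ValuationSubring.mem_nonunits_iff, ← ValuationSubring.valuation_lt_one_iff]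
    exact (IsLocalRing.mem_maximalIdeal _).2 hϖ.not_isUnit
  have hϖ0 : (ϖ : F) ≠ 0 := fun h => hϖ.ne_zero (Subtype.ext h)
  have hgen : ∀ f ∈ V.nonunits, f * (ϖ : F)⁻¹ ∈ V := by
    intro f hf
    have hfV : f ∈ V := V.nonunits_subset hf
    have hfm : (⟨f, hfV⟩ : V) ∈ IsLocalRing.maximalIdeal V := by
      rw [ValuationSubring.valuation_lt_one_iff]
      exact (ValuationSubring.mem_nonunits_iff V).1 hf
    rw [(IsDiscreteValuationRing.irreducible_iff_uniformizer ϖ).1 hϖ,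
      Ideal.mem_span_singleton'] at hfm
    obtain ⟨c, hc⟩ := hfm
    have : f * (ϖ : F)⁻¹ = (c : F) := by
      have h1 : (c : F) * (ϖ : F) = f := congrArg Subtype.val hc
      rw [← h1]
      field_simp
    rw [this]
    exact c.2
  obtain ⟨a, ha⟩ := exists_isOrd_of_dvr V hϖ0 hϖm hgen y⁻¹ (inv_ne_zero hy0)
  obtain ⟨b, hb⟩ := exists_isOrd_of_dvr V hϖ0 hϖm hgen (ϖ' : F) hϖ'0
  have hvϖ : V.valuation (ϖ : F) < 1 := val_lt_one_of_mem_nonunits hϖm
  have hvϖ0 : 0 < V.valuation (ϖ : F) := zero_lt_iff.2 ((Valuation.ne_zero_iff _).2 hϖ0)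
  have ha0 : 0 < a := by
    unfold IsOrd at ha
    rw [ha] at hyinv
    by_contra hneg
    have : 1 ≤ V.valuation (ϖ : F) ^ a := by
      have h1 : V.valuation (ϖ : F) ^ (0 : ℤ) ≤ V.valuation (ϖ : F) ^ a :=
        (zpow_le_zpow_iff_right_of_lt_one₀ hvϖ0 hvϖ).2 (not_lt.1 hneg)
      simpa using h1
    exact (not_le.2 hyinv) this
  have hb0 : 0 < b := by
    unfold IsOrd at hb
    rw [hb] at hϖ'V
    by_contra hneg
    have : 1 ≤ V.valuation (ϖ : F) ^ b := by
      have h1 : V.valuation (ϖ : F) ^ (0 : ℤ) ≤ V.valuation (ϖ : F) ^ b :=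
        (zpow_le_zpow_iff_right_of_lt_one₀ hvϖ0 hvϖ).2 (not_lt.1 hneg)
      simpa using h1
    exact (not_le.2 hϖ'V) this
  -- `ϖ' ^ a * y ^ b` is a unit of `V`, hence of `V'`
  obtain ⟨a', rfl⟩ : ∃ a' : ℕ, a = a' := ⟨a.toNat, (Int.toNat_of_nonneg ha0.le).symm⟩
  obtain ⟨b', rfl⟩ : ∃ b' : ℕ, b = b' := ⟨b.toNat, (Int.toNat_of_nonneg hb0.le).symm⟩
  have hu : V.valuation ((ϖ' : F) ^ a' * y ^ b') = 1 := by
    have h1 : IsOrd V (ϖ : F) ((ϖ' : F) ^ a') ((a' : ℤ) * b') := hb.pow a'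
    have h2 : IsOrd V (ϖ : F) ((y⁻¹) ^ b') ((b' : ℤ) * a') := ha.pow b'
    unfold IsOrd at h1 h2
    rw [map_mul, h1, map_pow]
    rw [map_pow, map_inv₀, inv_pow] at h2
    have h3 : V.valuation y ^ b' ≠ 0 := pow_ne_zero _ ((Valuation.ne_zero_iff _).2 hy0)
    have h4 : V.valuation y ^ b' = (V.valuation (ϖ : F) ^ ((b' : ℤ) * a'))⁻¹ := by
      rw [← h2, inv_inv]
    rw [h4, mul_comm (a' : ℤ) b']
    exact mul_inv_cancel₀ (zpow_ne_zero _ hvϖ0.ne')
  have hu' : V'.valuation ((ϖ' : F) ^ a' * y ^ b') = 1 := by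
    have hz0 : (ϖ' : F) ^ a' * y ^ b' ≠ 0 :=
      mul_ne_zero (pow_ne_zero _ hϖ'0) (pow_ne_zero _ hy0)
    have h1 : (ϖ' : F) ^ a' * y ^ b' ∈ V' :=
      hle ((ValuationSubring.valuation_le_one_iff V _).1 hu.le)
    have h2 : ((ϖ' : F) ^ a' * y ^ b')⁻¹ ∈ V' := by
      apply hle
      rw [← ValuationSubring.valuation_le_one_iff, map_inv₀, hu, inv_one]
    have h3 := (ValuationSubring.valuation_le_one_iff V' _).2 h1
    have h4 := (ValuationSubring.valuation_le_one_iff V' _).2 h2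
    rw [map_inv₀] at h4
    have h5 : 1 ≤ V'.valuation ((ϖ' : F) ^ a' * y ^ b') :=
      (inv_le_one₀ (zero_lt_iff.2 ((Valuation.ne_zero_iff _).2 hz0))).1 h4
    exact le_antisymm h3 h5
  -- but it lies in `𝔪_V'`
  have hlt : V'.valuation ((ϖ' : F) ^ a' * y ^ b') < 1 := by
    rw [map_mul, map_pow, map_pow]
    have hy1 : V'.valuation y ≤ 1 := (ValuationSubring.valuation_le_one_iff V' _).2 hy
    have ha'0 : a' ≠ 0 := by
      rintro rfl
      simp at ha0
    have h1 : V'.valuation (ϖ' : F) ^ a' < 1 := pow_lt_one₀ zero_le hϖ'm ha'0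
    have h2 : V'.valuation y ^ b' ≤ 1 := pow_le_one₀ zero_le hy1
    calc V'.valuation (ϖ' : F) ^ a' * V'.valuation y ^ b'
        ≤ V'.valuation (ϖ' : F) ^ a' * 1 := by gcongr
      _ = V'.valuation (ϖ' : F) ^ a' := mul_one _
      _ < 1 := h1
  exact (ne_of_lt hlt) hu'

end Dvr

end Fermat.Agent.S36.H586
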