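import Mathlib

/-!
# S36 engine, ALG3 cell NR2-ASM (helper586): norms ⇒ the Kummer function is completely split

Mathlib only.  Abstract setting of the three vertical valuations of `F = K(X₀(q² M'))` over the
two vertical valuations of `F' = K(X₀(q M'))` along the two degeneracy embeddings `α`, `β`.

* `PU V u`         : `u ∈ 1 + 𝔪_V` (principal unit of the valuation ring `V`);
* `IsOrd V t y a`  : `v_V(y) = v_V(t) ^ a` (`y` has order `a` with respect to `t`);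
* `NormTable φ N q w' π Os Oi Vu Vr Vi` : the norm calculus of ONE embedding `φ : F' → F` of
  degree `q` (norm `N`): over `Os` lie `Vu` (`e = f = 1`) and `Vr` (`e = q - 1`, `f = 1`,
  uniformiser `π`), over `Oi` lies `Vi` alone (`e = 1`, `f = q` purely inseparable).
  The fields are exactly the outputs of the cells MOD3 (lying over, residue degrees) and
  NV / NR (norm–valuation and norm–residue formulas);
* `stepAB` : if `N_α f` and `N_β f` are of the form `w' ^ s * g ^ m` with `gcd(q, m) = 1`, then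
  `f ^ (q² - 1) = w ^ s * G ^ m * u` with `u ≡ 1` at `V_FF`, `V_mid`, `V_VV`.

For `α` the table is `(Os, Oi | Vu, Vr, Vi) = (V₁', V₂' | V_FF, V_mid, V_VV)`, for `β` it is
`(V₂', V₁' | V_VV, V_mid, V_FF)`.
-/

set_option autoImplicit false

namespace Fermat.Agent.S36.H586

/-! ## Principal units -/

section PUnit

variable {F : Type*} [Field F] (V : ValuationSubring F)

/-- `u ∈ 1 + 𝔪_V`. -/
def PU (u : F) : Prop := V.valuation (u - 1) < 1

variable {V}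

theorem PU.val_eq_one {u : F} (h : PU V u) : V.valuation u = 1 := by
  have h1 : u = 1 + (u - 1) := by ring
  rw [h1]
  exact Valuation.map_one_add_of_lt _ h

theorem PU.ne_zero {u : F} (h : PU V u) : u ≠ 0 := by
  rintro rfl
  have := h.val_eq_one
  rw [map_zero] at this
  exact zero_ne_one this

theorem PU.one : PU V (1 : F) := by
  unfold PU
  rw [sub_self, map_zero]
  exact zero_lt_one

theorem PU.mul {u v : F} (hu : PU V u) (hv : PU V v) : PU V (u * v) := by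
  unfold PU
  have h1 : u * v - 1 = (u - 1) * v + (v - 1) := by ring
  rw [h1]
  refine Valuation.map_add_lt _ ?_ hv
  rw [map_mul, hv.val_eq_one, mul_one]
  exact hu

theorem PU.inv {u : F} (hu : PU V u) : PU V u⁻¹ := by
  unfold PU
  have hu0 := hu.ne_zero
  have h1 : u⁻¹ - 1 = -((u - 1) * u⁻¹) := by
    field_simp
    ring
  rw [h1, Valuation.map_neg, map_mul, map_inv₀, hu.val_eq_one, inv_one, mul_one]
  exact hu

theorem PU.div {u v : F} (hu : PU V u) (hv : PU V v) : PU V (u / v) := by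
  rw [div_eq_mul_inv]
  exact hu.mul hv.inv

theorem PU.pow {u : F} (hu : PU V u) (n : ℕ) : PU V (u ^ n) := by
  induction n with
  | zero => rw [pow_zero]; exact PU.one
  | succ n ih => rw [pow_succ]; exact ih.mul hu

theorem PU.zpow {u : F} (hu : PU V u) (n : ℤ) : PU V (u ^ n) := by
  cases n with
  | ofNat n => rw [Int.ofNat_eq_natCast, zpow_natCast]; exact hu.pow n
  | negSucc n => rw [zpow_negSucc]; exact (hu.pow _).inv

/-- `x ≡ y mod 𝔪_V`, `y` a unit  ⟹  `x / y ∈ 1 + 𝔪_V`. -/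
theorem pu_div_of_sub {x y : F} (hy : V.valuation y = 1) (h : V.valuation (x - y) < 1) :
    PU V (x / y) := by
  unfold PU
  have hy0 : y ≠ 0 := by
    rintro rfl
    rw [map_zero] at hy
    exact zero_ne_one hy
  have h1 : x / y - 1 = (x - y) * y⁻¹ := by
    field_simp
  rw [h1, map_mul, map_inv₀, hy, inv_one, mul_one]
  exact h

/-- `x / y ∈ 1 + 𝔪_V`, `y` a unit  ⟹  `x ≡ y mod 𝔪_V`. -/
theorem sub_of_pu_div {x y : F} (hy : V.valuation y = 1) (h : PU V (x / y)) :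
    V.valuation (x - y) < 1 := by
  unfold PU at h
  have hy0 : y ≠ 0 := by
    rintro rfl
    rw [map_zero] at hy
    exact zero_ne_one hy
  have h1 : x - y = (x / y - 1) * y := by
    field_simp
  rw [h1, map_mul, hy, mul_one]
  exact h

theorem PU.congr_mul {u x y : F} (hu : PU V u) (hxy : PU V (x / y)) (hy : y ≠ 0) :
    PU V (u * x / y) := by
  have : u * x / y = u * (x / y) := by field_simp
  rw [this]
  exact hu.mul hxy

end PUnit

/-! ## Orders with respect to a uniformiser -/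

section Ord

variable {F : Type*} [Field F] (V : ValuationSubring F)

/-- `v_V(y) = v_V(t) ^ a`. -/
def IsOrd (t y : F) (a : ℤ) : Prop := V.valuation y = V.valuation t ^ a

variable {V} {t : F}

theorem val_ne_zero_of_ne_zero {x : F} (hx : x ≠ 0) : V.valuation x ≠ 0 :=
  (Valuation.ne_zero_iff _).2 hx

theorem IsOrd.ne_zero (ht0 : t ≠ 0) {y : F} {a : ℤ} (h : IsOrd V t y a) : y ≠ 0 := by
  rintro rfl
  unfold IsOrd at h
  rw [map_zero] at h
  exact zpow_ne_zero a (val_ne_zero_of_ne_zero ht0) h.symm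

theorem IsOrd.unique (ht0 : t ≠ 0) (ht : V.valuation t < 1) {y : F} {a b : ℤ}
    (ha : IsOrd V t y a) (hb : IsOrd V t y b) : a = b := by
  unfold IsOrd at ha hb
  have h0 : 0 < V.valuation t := zero_lt_iff.2 (val_ne_zero_of_ne_zero ht0)
  exact zpow_right_injective₀ h0 ht.ne (ha.symm.trans hb)

theorem IsOrd.self : IsOrd V t t 1 := by
  unfold IsOrd
  rw [zpow_one]

theorem IsOrd.one : IsOrd V t 1 0 := by
  unfold IsOrd
  rw [map_one, zpow_zero]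

theorem IsOrd.mul (ht0 : t ≠ 0) {x y : F} {a b : ℤ} (hx : IsOrd V t x a) (hy : IsOrd V t y b) :
    IsOrd V t (x * y) (a + b) := by
  unfold IsOrd at *
  rw [map_mul, hx, hy, zpow_add₀ (val_ne_zero_of_ne_zero ht0)]

theorem IsOrd.inv {x : F} {a : ℤ} (hx : IsOrd V t x a) : IsOrd V t x⁻¹ (-a) := by
  unfold IsOrd at *
  rw [map_inv₀, hx, zpow_neg]

theorem IsOrd.pow {x : F} {a : ℤ} (hx : IsOrd V t x a) (n : ℕ) :
    IsOrd V t (x ^ n) (n * a) := by
  unfold IsOrd at *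
  rw [map_pow, hx, ← zpow_natCast, ← zpow_mul, mul_comm]

theorem IsOrd.zpow {x : F} {a : ℤ} (hx : IsOrd V t x a) (n : ℤ) :
    IsOrd V t (x ^ n) (n * a) := by
  unfold IsOrd at *
  rw [map_zpow₀, hx, ← zpow_mul, mul_comm]

theorem IsOrd.congr {x : F} {a b : ℤ} (hx : IsOrd V t x a) (hab : a = b) : IsOrd V t x b :=
  hab ▸ hx

theorem IsOrd.val_eq_one {x : F} (hx : IsOrd V t x 0) : V.valuation x = 1 := by
  unfold IsOrd at hx
  rw [hx, zpow_zero]

theorem isOrd_zero_of_val {x : F} (hx : V.valuation x = 1) : IsOrd V t x 0 := by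
  unfold IsOrd
  rw [hx, zpow_zero]

/-- change of uniformiser: `v(s) = v(t) ^ e`. -/
theorem IsOrd.of_ram {s x : F} {e : ℤ} (hs : IsOrd V t s e) {a : ℤ} (hx : IsOrd V s x a) :
    IsOrd V t x (a * e) := by
  unfold IsOrd at *
  rw [hx, hs, ← zpow_mul, mul_comm]

end Ord

/-! ## Lying over -/

section Over

variable {F' F : Type*} [Field F'] [Field F] {φ : F' →+* F} {O : ValuationSubring F'}
  {V : ValuationSubring F}

theorem over_val_le_one (hov : ∀ a : F', φ a ∈ V ↔ a ∈ O) (a : F') :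
    V.valuation (φ a) ≤ 1 ↔ O.valuation a ≤ 1 := by
  rw [ValuationSubring.valuation_le_one_iff, ValuationSubring.valuation_le_one_iff]
  exact hov a

theorem over_val_lt_one (hov : ∀ a : F', φ a ∈ V ↔ a ∈ O) (a : F') :
    V.valuation (φ a) < 1 ↔ O.valuation a < 1 := by
  rw [← ValuationSubring.mem_nonunits_iff, ← ValuationSubring.mem_nonunits_iff,
    ValuationSubring.mem_nonunits_iff_or, ValuationSubring.mem_nonunits_iff_or, ← map_inv₀,
    hov, map_eq_zero]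

theorem over_val_eq_one (hov : ∀ a : F', φ a ∈ V ↔ a ∈ O) (a : F') :
    V.valuation (φ a) = 1 ↔ O.valuation a = 1 := by
  constructor
  · intro h
    exact le_antisymm ((over_val_le_one hov a).1 h.le)
      (not_lt.1 fun h' => (ne_of_lt ((over_val_lt_one hov a).2 h')) h)
  · intro h
    exact le_antisymm ((over_val_le_one hov a).2 h.le)
      (not_lt.1 fun h' => (ne_of_lt ((over_val_lt_one hov a).1 h')) h)

theorem over_pu (hov : ∀ a : F', φ a ∈ V ↔ a ∈ O) (a : F') : PU V (φ a) ↔ PU O a := by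
  unfold PU
  rw [← map_one φ, ← map_sub]
  exact over_val_lt_one hov _

theorem over_isOrd (hov : ∀ a : F', φ a ∈ V ↔ a ∈ O) {t : F'} (a : F') (n : ℤ) :
    IsOrd O t a n → IsOrd V (φ t) (φ a) n := by
  intro h
  unfold IsOrd at *
  by_cases ht : t = 0
  · subst ht
    rw [map_zero, map_zero] at *
    by_cases hn : n = 0
    · subst hn
      rw [zpow_zero] at *
      exact (over_val_eq_one hov a).2 h
    · rw [zero_zpow n hn] at *
      rw [(Valuation.zero_iff _).1 h, map_zero, map_zero]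
  have h1 : O.valuation (a * (t ^ n)⁻¹) = 1 := by
    rw [map_mul, map_inv₀, map_zpow₀, h]
    exact mul_inv_cancel₀ (zpow_ne_zero n (val_ne_zero_of_ne_zero ht))
  have h2 := (over_val_eq_one hov _).2 h1
  rw [map_mul, map_inv₀, map_zpow₀, map_mul, map_inv₀, map_zpow₀] at h2
  have h3 : V.valuation (φ t) ^ n ≠ 0 :=
    zpow_ne_zero n (val_ne_zero_of_ne_zero ((map_ne_zero φ).2 ht))
  field_simp at h2
  exact h2

end Over

/-! ## Multiplicative functions `N : F → F'` -/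

section NormFn

variable {F' F : Type*} [Field F'] [Field F] {N : F → F'}

theorem nfn_ne_zero (h1 : N 1 = 1) (hmul : ∀ x y, N (x * y) = N x * N y) {x : F} (hx : x ≠ 0) :
    N x ≠ 0 := by
  intro h
  have h2 : N (x * x⁻¹) = N x * N x⁻¹ := hmul x x⁻¹
  rw [mul_inv_cancel₀ hx, h1, h, zero_mul] at h2
  exact one_ne_zero h2

theorem nfn_inv (h1 : N 1 = 1) (hmul : ∀ x y, N (x * y) = N x * N y) {x : F} (hx : x ≠ 0) :
    N x⁻¹ = (N x)⁻¹ := by
  have h2 : N (x * x⁻¹) = N x * N x⁻¹ := hmul x x⁻¹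
  rw [mul_inv_cancel₀ hx, h1] at h2
  exact eq_inv_of_mul_eq_one_right h2.symm

theorem nfn_pow (h1 : N 1 = 1) (hmul : ∀ x y, N (x * y) = N x * N y) (x : F) (n : ℕ) :
    N (x ^ n) = N x ^ n := by
  induction n with
  | zero => rw [pow_zero, pow_zero, h1]
  | succ n ih => rw [pow_succ, pow_succ, hmul, ih]

theorem nfn_zpow (h1 : N 1 = 1) (hmul : ∀ x y, N (x * y) = N x * N y) {x : F} (hx : x ≠ 0)
    (n : ℤ) : N (x ^ n) = N x ^ n := by
  cases n with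
  | ofNat n => rw [Int.ofNat_eq_natCast, zpow_natCast, zpow_natCast, nfn_pow h1 hmul]
  | negSucc n =>
    rw [zpow_negSucc, zpow_negSucc, nfn_inv h1 hmul (pow_ne_zero _ hx), nfn_pow h1 hmul]

end NormFn

/-! ## Small lemmas -/

section Small

variable {F : Type*} [Field F] {V : ValuationSubring F}

theorem val_eq_one_of_pow {x : F} {m : ℕ} (hm : 0 < m) (h : V.valuation (x ^ m) = 1) :
    V.valuation x = 1 := by
  rw [map_pow] at h
  exact (pow_eq_one_iff_of_nonneg zero_le hm.ne').1 h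

/-- A unit of order `0` of the form `w ^ e * G ^ m` is an `m`-th power. -/
theorem exists_pow_eq_of_isOrd_zero {w : F} (hw0 : w ≠ 0) (hw : V.valuation w < 1)
    (hord : ∀ y : F, y ≠ 0 → ∃ a : ℤ, IsOrd V w y a) {m : ℕ}
    {x : F} (hx : IsOrd V w x 0) {e : ℤ} {G : F} (hG : G ≠ 0) (hxe : x = w ^ e * G ^ m) :
    ∃ h : F, h ≠ 0 ∧ x = h ^ m := by
  obtain ⟨c, hc⟩ := hord G hG
  have h1 : IsOrd V w x (e * 1 + m * c) := by
    rw [hxe]
    exact ((IsOrd.self).zpow e).mul hw0 (hc.pow m)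
  have h2 : (0 : ℤ) = e * 1 + m * c := IsOrd.unique hw0 hw hx h1
  have h3 : e = (-c) * (m : ℤ) := by linear_combination -h2
  refine ⟨w ^ (-c) * G, mul_ne_zero (zpow_ne_zero _ hw0) hG, ?_⟩
  rw [hxe, mul_pow, ← zpow_natCast (w ^ (-c)) m, ← zpow_mul, ← h3]

/-- `x ^ q ∈ (Fˣ)^m · (1 + 𝔪)`, `gcd(q, m) = 1`  ⟹  `x ∈ (Fˣ)^m · (1 + 𝔪)`. -/
theorem exists_pu_div_pow_of_coprime {q m : ℕ} (hqm : Nat.Coprime q m) {x y : F}
    (hx : x ≠ 0) (hy : y ≠ 0) (h : PU V (x ^ q / y ^ m)) :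
    ∃ G : F, G ≠ 0 ∧ PU V (x / G ^ m) := by
  obtain ⟨a, b, hab⟩ := Nat.isCoprime_iff_coprime.2 hqm
  refine ⟨y ^ a * x ^ b, mul_ne_zero (zpow_ne_zero _ hy) (zpow_ne_zero _ hx), ?_⟩
  have h1 : x / (y ^ a * x ^ b) ^ m = (x ^ q / y ^ m) ^ a := by
    have hx1 : x = (x ^ q) ^ a * (x ^ b) ^ m := by
      rw [← zpow_natCast x q, ← zpow_natCast (x ^ b) m, ← zpow_mul, ← zpow_mul,
        ← zpow_add₀ hx, mul_comm (q : ℤ) a, hab, zpow_one]
    have hyb : (y ^ a * x ^ b) ^ m = (y ^ m) ^ a * (x ^ b) ^ m := by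
      rw [mul_pow, ← zpow_natCast (y ^ a) m, ← zpow_mul, mul_comm a (m : ℤ), zpow_mul,
        zpow_natCast]
    rw [hyb, div_zpow]
    have h2 : (y ^ m) ^ a ≠ 0 := zpow_ne_zero _ (pow_ne_zero _ hy)
    have h3 : (x ^ b) ^ m ≠ 0 := pow_ne_zero _ (zpow_ne_zero _ hx)
    rw [div_eq_div_iff (mul_ne_zero h2 h3) h2]
    calc x * (y ^ m) ^ a = ((x ^ q) ^ a * (x ^ b) ^ m) * (y ^ m) ^ a := by rw [← hx1]
      _ = (x ^ q) ^ a * ((y ^ m) ^ a * (x ^ b) ^ m) := by ring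
  rw [h1]
  exact h.zpow a

end Small

/-! ## The norm table of one embedding -/

section Table

variable {F' F : Type*} [Field F'] [Field F]

/-- The norm calculus of one embedding `φ : F' → F` of degree `q` with norm `N`.
Over `Os` lie `Vu` (`e = f = 1`) and `Vr` (`e = q - 1`, `f = 1`, uniformiser `π`); over `Oi`
lies `Vi` alone (`e = 1`, `f = q`, purely inseparable).  `w'` is a common uniformiser of `Os`,
`Oi` (and `φ w'` of `Vu`, `Vi`). -/
structure NormTable (φ : F' →+* F) (N : F → F') (q : ℕ) (w' : F') (π : F)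
    (Os Oi : ValuationSubring F') (Vu Vr Vi : ValuationSubring F) : Prop where
  norm_one : N 1 = 1
  norm_mul : ∀ x y : F, N (x * y) = N x * N y
  norm_w : N (φ w') = w' ^ q
  over_u : ∀ a : F', φ a ∈ Vu ↔ a ∈ Os
  over_r : ∀ a : F', φ a ∈ Vr ↔ a ∈ Os
  over_i : ∀ a : F', φ a ∈ Vi ↔ a ∈ Oi
  res_u : ∀ y : F, Vu.valuation y = 1 → ∃ a : F', Vu.valuation (y - φ a) < 1
  res_r : ∀ y : F, Vr.valuation y = 1 → ∃ a : F', Vr.valuation (y - φ a) < 1
  res_i : ∀ y : F, Vi.valuation y = 1 → ∃ c : F', Vi.valuation (y ^ q - φ c) < 1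
  norm_s : ∀ (y : F) (a b : F'), Vu.valuation y = 1 → Vr.valuation y = 1 →
    Vu.valuation (y - φ a) < 1 → Vr.valuation (y - φ b) < 1 →
    Os.valuation (N y - a * b ^ (q - 1)) < 1
  norm_i : ∀ (y : F) (c : F'), Vi.valuation y = 1 → Vi.valuation (y ^ q - φ c) < 1 →
    Oi.valuation (N y - c) < 1
  val_s : ∀ (y : F) (a b : ℤ), IsOrd Vu (φ w') y a → IsOrd Vr π y b →
    IsOrd Os w' (N y) (a + b)
  val_i : ∀ (y : F) (c : ℤ), IsOrd Vi (φ w') y c → IsOrd Oi w' (N y) (q * c)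

variable {φ : F' →+* F} {N : F → F'} {q : ℕ} {w' : F'} {π : F}
  {Os Oi : ValuationSubring F'} {Vu Vr Vi : ValuationSubring F}

theorem ne_of_val {K : Type*} [Field K] {W : ValuationSubring K} {z : K}
    (hz : W.valuation z = 1) : z ≠ 0 := by
  intro h0
  rw [h0, map_zero] at hz
  exact zero_ne_one hz

theorem val_eq_one_of_sub_lt {V : ValuationSubring F} {x y : F} (hx : V.valuation x = 1)
    (h : V.valuation (x - y) < 1) : V.valuation y = 1 := by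
  have h1 : y = x + -(x - y) := by ring
  rw [h1]
  have h2 : V.valuation (-(x - y)) < V.valuation x := by
    rw [Valuation.map_neg, hx]
    exact h
  rw [Valuation.map_add_eq_of_lt_left _ h2, hx]

/-- The purely inseparable place: if `N y` is an `m`-th power of a unit then the residue of `y`
at `Vi` is an `m`-th power (`gcd(q, m) = 1`). -/
theorem NormTable.pu_insep (T : NormTable φ N q w' π Os Oi Vu Vr Vi) {m : ℕ}
    (hqm : Nat.Coprime q m) {y : F} (hy : Vi.valuation y = 1) {h : F'}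
    (hh : Oi.valuation h = 1) (hN : N y = h ^ m) :
    ∃ G : F, G ≠ 0 ∧ PU Vi (y / G ^ m) := by
  obtain ⟨c, hc⟩ := T.res_i y hy
  have h1 := T.norm_i y c hy hc
  rw [hN] at h1
  have h2 : Vi.valuation (φ (h ^ m - c)) < 1 := (over_val_lt_one T.over_i _).2 h1
  have h3 : Vi.valuation (y ^ q - (φ h) ^ m) < 1 := by
    have e : y ^ q - (φ h) ^ m = (y ^ q - φ c) + -(φ (h ^ m - c)) := by
      rw [map_sub, map_pow]
      ring
    rw [e]
    refine Valuation.map_add_lt _ hc ?_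
    rw [Valuation.map_neg]
    exact h2
  have hφh : Vi.valuation (φ h) = 1 := (over_val_eq_one T.over_i h).2 hh
  have hφhm : Vi.valuation ((φ h) ^ m) = 1 := by rw [map_pow, hφh, one_pow]
  have hy0 : y ≠ 0 := by
    rintro rfl
    rw [map_zero] at hy
    exact zero_ne_one hy
  have hφh0 : φ h ≠ 0 := by
    intro h0
    rw [h0, map_zero] at hφh
    exact zero_ne_one hφh
  exact exists_pu_div_pow_of_coprime hqm hy0 hφh0 (pu_div_of_sub hφhm h3)

/-- The split place: if `N y = h ^ m` and the residue of `y` at `Vu` is an `m`-th power, then the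
residue of `y ^ (q - 1)` at `Vr` is an `m`-th power. -/
theorem NormTable.pu_split (T : NormTable φ N q w' π Os Oi Vu Vr Vi) {m : ℕ}
    {y : F} (hyu : Vu.valuation y = 1) (hyr : Vr.valuation y = 1) {h : F'}
    (hh : Os.valuation h = 1) (hN : N y = h ^ m)
    {Gu : F} (hGu1 : Vu.valuation Gu = 1) (hGu : PU Vu (y / Gu ^ m)) :
    ∃ G : F, G ≠ 0 ∧ Vr.valuation G = 1 ∧ PU Vr (y ^ (q - 1) / G ^ m) := by
  obtain ⟨a, ha⟩ := T.res_u y hyu
  obtain ⟨b, hb⟩ := T.res_r y hyr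
  obtain ⟨g', hg'⟩ := T.res_u Gu hGu1
  have h1 := T.norm_s y a b hyu hyr ha hb
  rw [hN] at h1
  -- units
  have hφa : Vu.valuation (φ a) = 1 := val_eq_one_of_sub_lt hyu ha
  have hφb : Vr.valuation (φ b) = 1 := val_eq_one_of_sub_lt hyr hb
  have hφg : Vu.valuation (φ g') = 1 := val_eq_one_of_sub_lt hGu1 hg'
  have ha1 : Os.valuation a = 1 := (over_val_eq_one T.over_u a).1 hφa
  have hb1 : Os.valuation b = 1 := (over_val_eq_one T.over_r b).1 hφb
  have hg1 : Os.valuation g' = 1 := (over_val_eq_one T.over_u g').1 hφg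
  have ha0 : a ≠ 0 := ne_of_val ha1
  have hb0 : b ≠ 0 := ne_of_val hb1
  have hg0 : g' ≠ 0 := ne_of_val hg1
  have hh0 : h ≠ 0 := ne_of_val hh
  have hy0 : y ≠ 0 := ne_of_val hyu
  have hGu0 : Gu ≠ 0 := ne_of_val hGu1
  have hφa0 : φ a ≠ 0 := ne_of_val hφa
  have hφg0 : φ g' ≠ 0 := ne_of_val hφg
  -- `a ≡ g' ^ m` at `Os`
  have p1 : PU Vu (y / φ a) := pu_div_of_sub hφa ha
  have p2 : PU Vu (Gu / φ g') := pu_div_of_sub hφg hg'
  have p3 : PU Vu (φ (a / g' ^ m)) := by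
    have e : φ (a / g' ^ m) = (y / φ a)⁻¹ * (y / Gu ^ m) * (Gu / φ g') ^ m := by
      rw [map_div₀, map_pow, div_pow]
      field_simp
    rw [e]
    exact (p1.inv.mul hGu).mul (p2.pow m)
  have p4 : PU Os (a / g' ^ m) := (over_pu T.over_u _).1 p3
  -- `h ^ m ≡ a * b ^ (q - 1)` at `Os`
  have hab1 : Os.valuation (a * b ^ (q - 1)) = 1 := by
    rw [map_mul, map_pow, ha1, hb1, one_pow, one_mul]
  have p5 : PU Os (h ^ m / (a * b ^ (q - 1))) := pu_div_of_sub hab1 h1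
  -- `b ^ (q - 1) ≡ (h / g') ^ m` at `Os`
  have p6 : PU Os (b ^ (q - 1) / (h / g') ^ m) := by
    have e : b ^ (q - 1) / (h / g') ^ m = (h ^ m / (a * b ^ (q - 1)))⁻¹ * (a / g' ^ m)⁻¹ := by
      rw [div_pow]
      field_simp
    rw [e]
    exact p5.inv.mul p4.inv
  have p7 : PU Vr (φ (b ^ (q - 1) / (h / g') ^ m)) := (over_pu T.over_r _).2 p6
  have p8 : PU Vr (y / φ b) := pu_div_of_sub hφb hb
  refine ⟨φ (h / g'), (map_ne_zero φ).2 (div_ne_zero hh0 hg0), ?_, ?_⟩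
  · rw [over_val_eq_one T.over_r, map_div₀, hh, hg1, div_one]
  · have hφb0 : φ b ≠ 0 := ne_of_val hφb
    have hφh0 : φ h ≠ 0 := (map_ne_zero φ).2 hh0
    have hZ0 : φ (h / g') ≠ 0 := (map_ne_zero φ).2 (div_ne_zero hh0 hg0)
    have e : y ^ (q - 1) / φ (h / g') ^ m =
        (y / φ b) ^ (q - 1) * φ (b ^ (q - 1) / (h / g') ^ m) := by
      rw [map_div₀ φ (b ^ (q - 1)), map_pow, map_pow, div_pow]
      field_simp
    rw [e]
    exact (p8.pow _).mul p7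

/-- Normalisation of the norm: `f₁ = f ^ k / (w ^ t * g₀ ^ m)` a unit at the split places and
`N f = w' ^ s * g ^ m`  ⟹  `N f₁` is the `m`-th power of a unit of `Os` and of `Oi`. -/
theorem NormTable.norm_unit_pow (T : NormTable φ N q w' π Os Oi Vu Vr Vi) {m : ℕ} (hm : 0 < m)
    (hw'0 : w' ≠ 0) (hwOs : Os.valuation w' < 1)
    (hordOs : ∀ y : F', y ≠ 0 → ∃ a : ℤ, IsOrd Os w' y a)
    {f g₀ : F} (hg₀ : g₀ ≠ 0) {s : ℤ} {g : F'} (hg : g ≠ 0)
    (hN : N f = w' ^ s * g ^ m) (k : ℕ) (t : ℤ)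
    (hu : Vu.valuation (f ^ k * ((φ w') ^ t)⁻¹ * (g₀ ^ m)⁻¹) = 1)
    (hr : Vr.valuation (f ^ k * ((φ w') ^ t)⁻¹ * (g₀ ^ m)⁻¹) = 1)
    (hi : Vi.valuation (f ^ k * ((φ w') ^ t)⁻¹ * (g₀ ^ m)⁻¹) = 1) :
    ∃ h : F', Os.valuation h = 1 ∧ Oi.valuation h = 1 ∧
      N (f ^ k * ((φ w') ^ t)⁻¹ * (g₀ ^ m)⁻¹) = h ^ m := by
  have hφw0 : φ w' ≠ 0 := (map_ne_zero φ).2 hw'0
  have hNg₀ : N g₀ ≠ 0 := nfn_ne_zero T.norm_one T.norm_mul hg₀
  have hNf₁ : N (f ^ k * ((φ w') ^ t)⁻¹ * (g₀ ^ m)⁻¹) =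
      w' ^ (s * k - q * t) * (g ^ k * (N g₀)⁻¹) ^ m := by
    rw [T.norm_mul, T.norm_mul, nfn_pow T.norm_one T.norm_mul,
      nfn_inv T.norm_one T.norm_mul (zpow_ne_zero _ hφw0),
      nfn_zpow T.norm_one T.norm_mul hφw0,
      nfn_inv T.norm_one T.norm_mul (pow_ne_zero _ hg₀), nfn_pow T.norm_one T.norm_mul,
      T.norm_w, hN, zpow_sub₀ hw'0, mul_pow, mul_pow, inv_pow, ← zpow_natCast (w' ^ s) k,
      ← zpow_mul]
    have e1 : (w' ^ q) ^ t = w' ^ ((q : ℤ) * t) := by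
      rw [← zpow_natCast w' q, ← zpow_mul]
    rw [e1]
    have h1 : w' ^ ((q : ℤ) * t) ≠ 0 := zpow_ne_zero _ hw'0
    have h2 : N g₀ ^ m ≠ 0 := pow_ne_zero _ hNg₀
    field_simp
    rw [← pow_mul, ← pow_mul, mul_comm m k]
  have h0 : IsOrd Os w' (N (f ^ k * ((φ w') ^ t)⁻¹ * (g₀ ^ m)⁻¹)) 0 := by
    have := T.val_s _ 0 0 (isOrd_zero_of_val hu) (isOrd_zero_of_val hr)
    rwa [add_zero] at this
  obtain ⟨h, hh0, hh⟩ := exists_pow_eq_of_isOrd_zero hw'0 hwOs hordOs h0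
    (mul_ne_zero (pow_ne_zero k hg) (inv_ne_zero hNg₀)) hNf₁
  refine ⟨h, ?_, ?_, hh⟩
  · apply val_eq_one_of_pow hm
    rw [← hh]
    exact h0.val_eq_one
  · apply val_eq_one_of_pow hm
    rw [← hh]
    have := T.val_i _ 0 (isOrd_zero_of_val hi)
    rw [mul_zero] at this
    exact this.val_eq_one

end Table

/-! ## The theorem -/

section Main

variable {F' F : Type*} [Field F'] [Field F]

/-- **NR2-ASM.**  Three vertical valuations `V_FF`, `V_mid`, `V_VV` of `F` over the two vertical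
valuations `V₁`, `V₂` of `F'`, with the norm tables of `α` and `β`.  If the norms of `f` along
`α` and `β` are of the form `w' ^ s * g ^ m`, `gcd(q, m) = 1`, then
`f ^ (q² - 1) = w ^ s * G ^ m * u` with `u ≡ 1` at the three vertical valuations. -/
theorem stepAB
    (α β : F' →+* F) (Nα Nβ : F → F') (q m : ℕ) (hq : 0 < q) (hm : 0 < m)
    (hqm : Nat.Coprime q m)
    (w' : F') (w π : F) (hαw : α w' = w) (hβw : β w' = w)
    (V1 V2 : ValuationSubring F') (VFF Vmid VVV : ValuationSubring F)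
    (Tα : NormTable α Nα q w' π V1 V2 VFF Vmid VVV)
    (Tβ : NormTable β Nβ q w' π V2 V1 VVV Vmid VFF)
    (hw'0 : w' ≠ 0) (hw1 : V1.valuation w' < 1) (hw2 : V2.valuation w' < 1)
    (hπ0 : π ≠ 0)
    (hram : IsOrd Vmid π w ((q : ℤ) - 1))
    (hordFF : ∀ y : F, y ≠ 0 → ∃ a : ℤ, IsOrd VFF w y a)
    (hordmid : ∀ y : F, y ≠ 0 → ∃ a : ℤ, IsOrd Vmid π y a)
    (hordVV : ∀ y : F, y ≠ 0 → ∃ a : ℤ, IsOrd VVV w y a)
    (hord1 : ∀ y : F', y ≠ 0 → ∃ a : ℤ, IsOrd V1 w' y a)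
    (hord2 : ∀ y : F', y ≠ 0 → ∃ a : ℤ, IsOrd V2 w' y a)
    (hap_ord : ∀ a b c : ℤ, ∃ g : F, IsOrd VFF w g a ∧ IsOrd Vmid π g b ∧ IsOrd VVV w g c)
    (hap_res : ∀ g₁ g₂ g₃ : F, VFF.valuation g₁ = 1 → Vmid.valuation g₂ = 1 →
      VVV.valuation g₃ = 1 → ∃ g : F, PU VFF (g / g₁) ∧ PU Vmid (g / g₂) ∧ PU VVV (g / g₃))
    (f : F) (hf : f ≠ 0)
    (hNα : ∃ (s : ℤ) (g : F'), g ≠ 0 ∧ Nα f = w' ^ s * g ^ m)
    (hNβ : ∃ (s : ℤ) (g : F'), g ≠ 0 ∧ Nβ f = w' ^ s * g ^ m) :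
    ∃ (s : ℤ) (G u : F), G ≠ 0 ∧ f ^ (q ^ 2 - 1) = w ^ s * G ^ m * u ∧
      PU VFF u ∧ PU Vmid u ∧ PU VVV u ∧
      (∃ k₁ : F', Nα u = k₁ ^ m) ∧ (∃ k₂ : F', Nβ u = k₂ ^ m) := by
  have hw0 : w ≠ 0 := by
    rw [← hαw]
    exact (map_ne_zero α).2 hw'0
  have hwFF : VFF.valuation w < 1 := by
    rw [← hαw]
    exact (over_val_lt_one Tα.over_u w').2 hw1
  have hwVV : VVV.valuation w < 1 := by
    rw [← hαw]
    exact (over_val_lt_one Tα.over_i w').2 hw2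
  -- orders of `f`
  obtain ⟨aFF, hFF⟩ := hordFF f hf
  obtain ⟨amid, hmid⟩ := hordmid f hf
  obtain ⟨aVV, hVV⟩ := hordVV f hf
  obtain ⟨sα, gα, hgα0, hNα⟩ := hNα
  obtain ⟨sβ, gβ, hgβ0, hNβ⟩ := hNβ
  obtain ⟨cα1, hcα1⟩ := hord1 gα hgα0
  obtain ⟨cα2, hcα2⟩ := hord2 gα hgα0
  obtain ⟨cβ1, hcβ1⟩ := hord1 gβ hgβ0
  obtain ⟨cβ2, hcβ2⟩ := hord2 gβ hgβ0
  -- the four norm–valuation equations
  have E1 : aFF + amid = sα * 1 + m * cα1 := by
    have e1a : IsOrd V1 w' (Nα f) (aFF + amid) := Tα.val_s f aFF amid (hαw ▸ hFF) hmid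
    have e1b : IsOrd V1 w' (Nα f) (sα * 1 + m * cα1) := by
      rw [hNα]
      exact ((IsOrd.self).zpow sα).mul hw'0 (hcα1.pow m)
    exact IsOrd.unique hw'0 hw1 e1a e1b
  have E2 : (q : ℤ) * aVV = sα * 1 + m * cα2 := by
    have e2a : IsOrd V2 w' (Nα f) (q * aVV) := Tα.val_i f aVV (hαw ▸ hVV)
    have e2b : IsOrd V2 w' (Nα f) (sα * 1 + m * cα2) := by
      rw [hNα]
      exact ((IsOrd.self).zpow sα).mul hw'0 (hcα2.pow m)
    exact IsOrd.unique hw'0 hw2 e2a e2b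
  have E3 : aVV + amid = sβ * 1 + m * cβ2 := by
    have e3a : IsOrd V2 w' (Nβ f) (aVV + amid) := Tβ.val_s f aVV amid (hβw ▸ hVV) hmid
    have e3b : IsOrd V2 w' (Nβ f) (sβ * 1 + m * cβ2) := by
      rw [hNβ]
      exact ((IsOrd.self).zpow sβ).mul hw'0 (hcβ2.pow m)
    exact IsOrd.unique hw'0 hw2 e3a e3b
  have E4 : (q : ℤ) * aFF = sβ * 1 + m * cβ1 := by
    have e4a : IsOrd V1 w' (Nβ f) (q * aFF) := Tβ.val_i f aFF (hβw ▸ hFF)
    have e4b : IsOrd V1 w' (Nβ f) (sβ * 1 + m * cβ1) := by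
      rw [hNβ]
      exact ((IsOrd.self).zpow sβ).mul hw'0 (hcβ1.pow m)
    exact IsOrd.unique hw'0 hw1 e4a e4b
  -- normalisation of the vertical orders
  set t : ℤ := ((q : ℤ) + 1) * aVV with ht
  set d₁ : ℤ := cα1 - cα2 - cβ2 + cβ1 with hd₁
  set d₂ : ℤ := ((q : ℤ) + 1) * (cα1 - cα2) - d₁ with hd₂
  have key1 : ((q : ℤ) + 1) * aFF = t + m * d₁ := by
    rw [ht, hd₁]
    linear_combination E1 - E2 - E3 + E4
  have key2 : ((q : ℤ) + 1) * amid = ((q : ℤ) - 1) * t + m * d₂ := by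
    rw [hd₂]
    linear_combination ((q : ℤ) + 1) * (E1 - E2) - key1
  obtain ⟨g₀, hg₀FF, hg₀mid, hg₀VV⟩ := hap_ord d₁ d₂ 0
  have hg₀0 : g₀ ≠ 0 := hg₀FF.ne_zero hw0
  -- `f₁`
  set f₁ : F := f ^ (q + 1) * (w ^ t)⁻¹ * (g₀ ^ m)⁻¹ with hf₁
  have hf₁FF : VFF.valuation f₁ = 1 := by
    have h1 : IsOrd VFF w f₁ (((q + 1 : ℕ) : ℤ) * aFF + -(t * 1) + -(m * d₁)) :=
      ((hFF.pow (q + 1)).mul hw0 ((IsOrd.self).zpow t).inv).mul hw0 (hg₀FF.pow m).inv
    refine (h1.congr ?_).val_eq_one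
    push_cast
    linear_combination key1
  have hf₁mid : Vmid.valuation f₁ = 1 := by
    have h1 : IsOrd Vmid π f₁ (((q + 1 : ℕ) : ℤ) * amid + -(t * ((q : ℤ) - 1)) + -(m * d₂)) :=
      ((hmid.pow (q + 1)).mul hπ0 (hram.zpow t).inv).mul hπ0 (hg₀mid.pow m).inv
    refine (h1.congr ?_).val_eq_one
    push_cast
    linear_combination key2
  have hf₁VV : VVV.valuation f₁ = 1 := by
    have h1 : IsOrd VVV w f₁ (((q + 1 : ℕ) : ℤ) * aVV + -(t * 1) + -(m * 0)) :=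
      ((hVV.pow (q + 1)).mul hw0 ((IsOrd.self).zpow t).inv).mul hw0 (hg₀VV.pow m).inv
    refine (h1.congr ?_).val_eq_one
    push_cast
    rw [ht]
    ring
  have hf₁0 : f₁ ≠ 0 := ne_of_val hf₁FF
  -- norms of `f₁`
  obtain ⟨hα, hα1, hα2, hNα₁⟩ : ∃ h : F', V1.valuation h = 1 ∧ V2.valuation h = 1 ∧
      Nα f₁ = h ^ m := by
    have := Tα.norm_unit_pow hm hw'0 hw1 hord1 hg₀0 hgα0 hNα (q + 1) t
      (by rw [hαw]; exact hf₁FF) (by rw [hαw]; exact hf₁mid) (by rw [hαw]; exact hf₁VV)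
    rw [hαw] at this
    exact this
  obtain ⟨hβ, hβ2, hβ1, hNβ₁⟩ : ∃ h : F', V2.valuation h = 1 ∧ V1.valuation h = 1 ∧
      Nβ f₁ = h ^ m := by
    have := Tβ.norm_unit_pow hm hw'0 hw2 hord2 hg₀0 hgβ0 hNβ (q + 1) t
      (by rw [hβw]; exact hf₁VV) (by rw [hβw]; exact hf₁mid) (by rw [hβw]; exact hf₁FF)
    rw [hβw] at this
    exact this
  -- residues
  obtain ⟨GVV, hGVV0, hGVV⟩ := Tα.pu_insep hqm hf₁VV hα2 hNα₁
  obtain ⟨GFF, hGFF0, hGFF⟩ := Tβ.pu_insep hqm hf₁FF hβ1 hNβ₁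
  have hGFF1 : VFF.valuation GFF = 1 := by
    apply val_eq_one_of_pow hm
    have h1 := hGFF.val_eq_one
    rw [map_div₀, hf₁FF] at h1
    have h2 : VFF.valuation (GFF ^ m) ≠ 0 := val_ne_zero_of_ne_zero (pow_ne_zero _ hGFF0)
    field_simp at h1
    exact h1.symm
  have hGVV1 : VVV.valuation GVV = 1 := by
    apply val_eq_one_of_pow hm
    have h1 := hGVV.val_eq_one
    rw [map_div₀, hf₁VV] at h1
    have h2 : VVV.valuation (GVV ^ m) ≠ 0 := val_ne_zero_of_ne_zero (pow_ne_zero _ hGVV0)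
    field_simp at h1
    exact h1.symm
  obtain ⟨Gmid, hGmid0, hGmid1, hGmid⟩ := Tα.pu_split hf₁FF hf₁mid hα1 hNα₁ hGFF1 hGFF
  -- approximation
  obtain ⟨G, hGa, hGb, hGc⟩ := hap_res (GFF ^ (q - 1)) Gmid (GVV ^ (q - 1))
    (by rw [map_pow, hGFF1, one_pow]) hGmid1 (by rw [map_pow, hGVV1, one_pow])
  have hG0 : G ≠ 0 := by
    intro h0
    rw [h0, zero_div] at hGa
    exact hGa.ne_zero rfl
  have hq2 : q ^ 2 - 1 = (q + 1) * (q - 1) := by
    obtain ⟨k, rfl⟩ : ∃ k, q = k + 1 := ⟨q - 1, by omega⟩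
    rw [Nat.add_sub_cancel]
    have : (k + 1) ^ 2 = (k + 1 + 1) * k + 1 := by ring
    rw [this, Nat.add_sub_cancel]
  refine ⟨t * ((q - 1 : ℕ) : ℤ), g₀ ^ (q - 1) * G, f₁ ^ (q - 1) / G ^ m,
    mul_ne_zero (pow_ne_zero _ hg₀0) hG0, ?_, ?_, ?_, ?_, ?_, ?_⟩
  · rw [hq2, hf₁]
    have h1 : w ^ t ≠ 0 := zpow_ne_zero _ hw0
    have h2 : g₀ ^ m ≠ 0 := pow_ne_zero _ hg₀0
    have h3 : G ^ m ≠ 0 := pow_ne_zero _ hG0
    rw [zpow_mul, zpow_natCast, mul_pow, mul_pow, mul_pow, inv_pow, inv_pow, pow_mul,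
      ← pow_mul g₀ (q - 1) m, ← pow_mul g₀ m (q - 1), mul_comm (q - 1) m]
    field_simp
  · have e : f₁ ^ (q - 1) / G ^ m = (f₁ / GFF ^ m) ^ (q - 1) * ((G / GFF ^ (q - 1)) ^ m)⁻¹ := by
      rw [div_pow, div_pow, ← pow_mul, ← pow_mul, mul_comm m (q - 1)]
      have h3 : G ^ m ≠ 0 := pow_ne_zero _ hG0
      have h4 : GFF ^ ((q - 1) * m) ≠ 0 := pow_ne_zero _ hGFF0
      field_simp
    rw [e]
    exact (hGFF.pow _).mul (hGa.pow m).inv
  · have e : f₁ ^ (q - 1) / G ^ m = (f₁ ^ (q - 1) / Gmid ^ m) * ((G / Gmid) ^ m)⁻¹ := by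
      rw [div_pow]
      have h3 : G ^ m ≠ 0 := pow_ne_zero _ hG0
      have h4 : Gmid ^ m ≠ 0 := pow_ne_zero _ hGmid0
      field_simp
    rw [e]
    exact hGmid.mul (hGb.pow m).inv
  · have e : f₁ ^ (q - 1) / G ^ m = (f₁ / GVV ^ m) ^ (q - 1) * ((G / GVV ^ (q - 1)) ^ m)⁻¹ := by
      rw [div_pow, div_pow, ← pow_mul, ← pow_mul, mul_comm m (q - 1)]
      have h3 : G ^ m ≠ 0 := pow_ne_zero _ hG0
      have h4 : GVV ^ ((q - 1) * m) ≠ 0 := pow_ne_zero _ hGVV0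
      field_simp
    rw [e]
    exact (hGVV.pow _).mul (hGc.pow m).inv
  · refine ⟨hα ^ (q - 1) * (Nα G)⁻¹, ?_⟩
    rw [div_eq_mul_inv, Tα.norm_mul, nfn_pow Tα.norm_one Tα.norm_mul, hNα₁,
      nfn_inv Tα.norm_one Tα.norm_mul (pow_ne_zero _ hG0), nfn_pow Tα.norm_one Tα.norm_mul,
      mul_pow, inv_pow, ← pow_mul, ← pow_mul, mul_comm m (q - 1)]
  · refine ⟨hβ ^ (q - 1) * (Nβ G)⁻¹, ?_⟩
    rw [div_eq_mul_inv, Tβ.norm_mul, nfn_pow Tβ.norm_one Tβ.norm_mul, hNβ₁,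
      nfn_inv Tβ.norm_one Tβ.norm_mul (pow_ne_zero _ hG0), nfn_pow Tβ.norm_one Tβ.norm_mul,
      mul_pow, inv_pow, ← pow_mul, ← pow_mul, mul_comm m (q - 1)]

end Main

end Fermat.Agent.S36.H586
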